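import Fermat.Agent.MU.S56.W4.C.D.Defs
import Fermat.Agent.MU.Lib.FFL.Red

section MergeWrap_S56_W4_C_D_Red -- from S56/W4/C/D/Red.lean

set_option autoImplicit false

namespace Fermat.Agent.S56.SS

open Fermat.Agent.FFL

local notation "Kb" => AlgebraicClosure ℚ
local notation "GK" => (AlgebraicClosure ℚ ≃ₐ[ℚ] AlgebraicClosure ℚ)

variable {P : ValuationSubring Kb} {W : Type} [AddCommGroup W] {act : GK → W → W}

/-- A finite sum of nonunits is a nonunit. -/
theorem red_sum_mem_nonunits (P : ValuationSubring Kb) {ι : Type*} (s : Finset ι) (x : ι → Kb)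
    (hx : ∀ i ∈ s, x i ∈ P.nonunits) : ∑ i ∈ s, x i ∈ P.nonunits := by
  classical
  induction s using Finset.induction_on with
  | empty => simp [red_zero_mem_nonunits P]
  | insert a s ha ih =>
    rw [Finset.sum_insert ha]
    exact red_add_mem_nonunits P (hx a (Finset.mem_insert_self a s))
      (ih (fun i hi => hx i (Finset.mem_insert_of_mem hi)))

/-- Congruent points have congruent sums, for the functions of an `I`-order. -/
theorem IOrd.add_congr (O : IOrd P W act) {w₁ w₁' w₂ w₂' : W}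
    (h1 : ∀ g ∈ O.alg, g w₁ - g w₁' ∈ P.nonunits) (h2 : ∀ g ∈ O.alg, g w₂ - g w₂' ∈ P.nonunits)
    {f : W → Kb} (hf : f ∈ O.alg) : f (w₁ + w₂) - f (w₁' + w₂') ∈ P.nonunits := by
  obtain ⟨n, g, h, hg, hh, hfg⟩ := O.comul f hf
  rw [hfg, hfg, ← Finset.sum_sub_distrib]
  refine red_sum_mem_nonunits P _ _ (fun i _ => ?_)
  have e : g i w₁ * h i w₂ - g i w₁' * h i w₂' =
      (g i w₁ - g i w₁') * h i w₂ + g i w₁' * (h i w₂ - h i w₂') := by ring
  rw [e]
  exact red_add_mem_nonunits P
    (red_mul_mem_nonunits_right P (h1 _ (hg i)) (O.int _ (hh i) _))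
    (red_mul_mem_nonunits_left P (O.int _ (hg i) _) (h2 _ (hh i)))

/-- The kernel of reduction of an `I`-order, as a subgroup. -/
def IOrd.redKerSubgroup (O : IOrd P W act) : AddSubgroup W where
  carrier := {w | ∀ f ∈ O.alg, f w - f 0 ∈ P.nonunits}
  zero_mem' := fun f _ => by rw [sub_self]; exact red_zero_mem_nonunits P
  add_mem' := by
    intro w w' hw hw' f hf
    have := O.add_congr hw hw' hf
    rwa [add_zero] at this
  neg_mem' := by
    intro w hw f hf
    have := hw _ (O.neg f hf)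
    simpa using this

theorem IOrd.mem_redKerSubgroup (O : IOrd P W act) (w : W) :
    w ∈ O.redKerSubgroup ↔ ∀ f ∈ O.alg, f w - f 0 ∈ P.nonunits := Iff.rfl

/-- The inertia group moves the points inside their class modulo the kernel of reduction. -/
theorem IOrd.act_sub_mem_redKer (O : IOrd P W act) {σ : GK} (hσ : σ ∈ P.inertiaSubgroupIn ℚ)
    (v : W) : act σ v - v ∈ O.redKerSubgroup := by
  intro f hf
  have h1 : ∀ g ∈ O.alg, g (act σ v) - g v ∈ P.nonunits := by
    intro g hg
    rw [O.equiv g hg σ hσ]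
    exact Fermat.Agent.Cyclo.inertia_sub_mem_nonunits P hσ (O.int g hg v)
  have h2 : ∀ g ∈ O.alg, g (-v) - g (-v) ∈ P.nonunits := by
    intro g _
    rw [sub_self]
    exact red_zero_mem_nonunits P
  have := O.add_congr h1 h2 hf
  rwa [← sub_eq_add_neg, ← sub_eq_add_neg, sub_self] at this

theorem IOrd.augI_le_redKerSubgroup (O : IOrd P W act) : augI P act ≤ O.redKerSubgroup := by
  unfold augI augOn
  rw [AddSubgroup.closure_le]
  rintro _ ⟨σ, hσ, v, -, rfl⟩
  exact O.act_sub_mem_redKer hσ v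

/-- **RED**. -/
theorem redProp (P : ValuationSubring Kb) : RedProp P := by
  intro W _ act O _ w hw f hf
  exact O.augI_le_redKerSubgroup hw f hf

end Fermat.Agent.S56.SS
end MergeWrap_S56_W4_C_D_Red
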