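import Fermat.Agent.MU.E.Desc.FlatAsmK
import Fermat.Agent.MU.Lib.FFL.Base
import Fermat.Agent.MU.Lib.FFL.Arith
import Fermat.Agent.MU.Lib.FFL.Unr
import Fermat.Agent.Lib.Cyclo.RootsReduce
import Fermat.Agent.MU.S56.W4.C.D.Defs
import Fermat.Agent.Lib.Cyclo.ModChar
import Fermat.Agent.MU.S56.W4.C.D.Red
import Fermat.Agent.MU.S56.W4.C.D.Basis

section MergeWrap_Lib_FFL_Char -- from Lib/FFL/Char.lean

set_option autoImplicit false
set_option linter.style.haveILetI false

namespace Fermat.Agent.FFL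

open Fermat.Agent.FlatMod GaloisRep

local notation "Kb" => AlgebraicClosure ℚ
local notation "GK" => (AlgebraicClosure ℚ ≃ₐ[ℚ] AlgebraicClosure ℚ)

variable {p : ℕ} {W : Type*} [AddCommGroup W] {act : GK → W → W}

/-- The `P`-span of a Hopf order. -/
noncomputable def spanP (P : ValuationSubring Kb) (O : HopfOrder p W act) :
    Submodule P (W → Kb) :=
  Submodule.span P (O.alg : Set (W → Kb))

theorem subset_spanP (P : ValuationSubring Kb) (O : HopfOrder p W act) :
    (O.alg : Set (W → Kb)) ⊆ spanP P O := Submodule.subset_span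

theorem smul_mem_spanP (P : ValuationSubring Kb) (O : HopfOrder p W act) {a : Kb}
    (ha : a ∈ P) {f : W → Kb} (hf : f ∈ spanP P O) :
    (fun w => a * f w) ∈ spanP P O :=
  (spanP P O).smul_mem ⟨a, ha⟩ hf

/-- The `P`-span is comultiplication-closed. -/
theorem spanP_comulClosed (P : ValuationSubring Kb) (O : HopfOrder p W act) :
    ComulClosed ((spanP P O : Submodule P (W → Kb)) : Set (W → Kb)) := by
  intro f hf
  show IsComulSum _ (fun w w' => f (w + w'))
  induction hf using Submodule.span_induction with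
  | mem h hh =>
    have h1 : IsComulSum (O.alg : Set (W → Kb)) (fun w w' => h (w + w')) :=
      hopfOrder_comulClosed O h hh
    exact h1.mono (subset_spanP P O)
  | zero => exact (IsComulSum.zero _).congr (fun _ _ => rfl)
  | add f g _ _ hf hg => exact (hf.add hg).congr (fun _ _ => rfl)
  | smul a f hf' hf =>
    obtain ⟨n, g, h, hg, hh, hgh⟩ := hf
    refine ⟨n, fun i w => (a : Kb) * g i w, h, fun i => smul_mem_spanP P O a.2 (hg i), hh,
      fun w w' => ?_⟩
    have hgh' : f (w + w') = ∑ i, g i w * h i w' := hgh w w'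
    show (a : Kb) * f (w + w') = _
    rw [hgh', Finset.mul_sum]
    exact Finset.sum_congr rfl (fun i _ => (mul_assoc _ _ _).symm)

/-- The values of the elements of the `P`-span are in `P`. -/
theorem spanP_mem [Fact p.Prime] (P : ValuationSubring Kb) (hP : P.LiesOverPrime p)
    (O : HopfOrder p W act) {f : W → Kb} (hf : f ∈ spanP P O) (w : W) : f w ∈ P := by
  induction hf using Submodule.span_induction with
  | mem h hh =>
    have h1 : IsIntegral (ratLocalizedAt p) (⟨h, hh⟩ : O.alg) := Algebra.IsIntegral.isIntegral _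
    exact Fermat.Agent.FF.pl_mem_of_isIntegral P hP (h1.map (evPt O.alg w))
  | zero => exact P.zero_mem
  | add f g _ _ hf hg => exact P.add_mem _ _ hf hg
  | smul a f _ hf => exact P.mul_mem _ _ a.2 hf

/-- The `P`-span of `O.alg` is the `P`-span of the basis functions. -/
theorem spanP_eq_span_range [Fact p.Prime] (P : ValuationSubring Kb) (hP : P.LiesOverPrime p)
    (O : HopfOrder p W act) :
    spanP P O = Submodule.span P (Set.range (spanFun O)) := by
  apply le_antisymm
  · refine Submodule.span_le.2 (fun h hh => ?_)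
    have h1 : (⟨h, hh⟩ : O.alg) = ∑ i, (spanBasis O).repr ⟨h, hh⟩ i • spanBasis O i :=
      ((spanBasis O).sum_repr _).symm
    have h2 : h = ∑ i, (⟨_, (algebraMap_mem_inertiaRing P hP
        ((spanBasis O).repr ⟨h, hh⟩ i)).1⟩ : P) • spanFun O i := by
      have h3 := congrArg (fun x : O.alg => (x : W → Kb)) h1
      simp only [AddSubmonoidClass.coe_finsetSum] at h3
      refine h3.trans (Finset.sum_congr rfl (fun i _ => ?_))
      funext w
      simp only [spanFun, Algebra.smul_def, Pi.smul_apply]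
      rfl
    rw [h2]
    exact Submodule.sum_mem _ (fun i _ => Submodule.smul_mem _ _ (Submodule.subset_span ⟨i, rfl⟩))
  · refine Submodule.span_le.2 ?_
    rintro _ ⟨i, rfl⟩
    exact subset_spanP P O (spanFun_mem O i)

/-- The elements of the `P`-span are the `P`-combinations of the basis functions. -/
theorem mem_spanP_iff [Fact p.Prime] (P : ValuationSubring Kb) (hP : P.LiesOverPrime p)
    (O : HopfOrder p W act) (f : W → Kb) :
    f ∈ spanP P O ↔ ∃ a : SpanIdx O → Kb, (∀ i, a i ∈ P) ∧ f = ∑ i, a i • spanFun O i := by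
  rw [spanP_eq_span_range P hP O, Submodule.mem_span_range_iff_exists_fun]
  constructor
  · rintro ⟨c, rfl⟩
    exact ⟨fun i => (c i : Kb), fun i => (c i).2, rfl⟩
  · rintro ⟨a, ha, rfl⟩
    exact ⟨fun i => ⟨a i, ha i⟩, rfl⟩

/-! ### The shift operator of a functional -/

/-- `(T_u f) w = u (w' ↦ f (w + w'))`. -/
noncomputable def shiftFun (u : (W → Kb) →ₗ[Kb] Kb) (f : W → Kb) : W → Kb :=
  fun w => u (fun w' => f (w + w'))

theorem shiftFun_smul (u : (W → Kb) →ₗ[Kb] Kb) (c : Kb) (f : W → Kb) :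
    shiftFun u (fun w => c * f w) = fun w => c * shiftFun u f w := by
  funext w
  unfold shiftFun
  have h1 : (fun w' => c * f (w + w')) = c • (fun w' => f (w + w')) := rfl
  rw [h1, map_smul, smul_eq_mul]

theorem shiftFun_char (u : (W → Kb) →ₗ[Kb] Kb) (χ : W → Kb)
    (hmul : ∀ w w', χ (w + w') = χ w * χ w') :
    shiftFun u χ = fun w => u χ * χ w := by
  funext w
  unfold shiftFun
  have h1 : (fun w' => χ (w + w')) = χ w • χ := by
    funext w'
    rw [hmul]
    rfl
  rw [h1, map_smul, smul_eq_mul, mul_comm]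

theorem shiftFun_iterate_char (u : (W → Kb) →ₗ[Kb] Kb) (χ : W → Kb)
    (hmul : ∀ w w', χ (w + w') = χ w * χ w') (c : Kb) (n : ℕ) :
    (shiftFun u)^[n] (fun w => c * χ w) = fun w => c * (u χ) ^ n * χ w := by
  induction n with
  | zero => simp
  | succ n ih =>
    rw [Function.iterate_succ_apply', ih, shiftFun_smul, shiftFun_char u χ hmul]
    funext w
    rw [pow_succ]
    ring

/-- If `u` is `P`-valued on the `P`-span, the shift operator `T_u` preserves the `P`-span. -/
theorem shiftFun_mem (P : ValuationSubring Kb) (O : HopfOrder p W act)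
    (u : (W → Kb) →ₗ[Kb] Kb) (hu : ∀ f ∈ spanP P O, u f ∈ P) {f : W → Kb}
    (hf : f ∈ spanP P O) : shiftFun u f ∈ spanP P O := by
  obtain ⟨n, g, h, hg, hh, hgh⟩ := spanP_comulClosed P O f hf
  have h1 : shiftFun u f = ∑ i, (⟨u (h i), hu _ (hh i)⟩ : P) • g i := by
    funext w
    unfold shiftFun
    have h2 : (fun w' => f (w + w')) = ∑ i, g i w • h i := by
      funext w'
      rw [hgh]
      simp only [Finset.sum_apply, Pi.smul_apply, smul_eq_mul]
    rw [h2, map_sum]
    simp only [map_smul, smul_eq_mul, Finset.sum_apply, Pi.smul_apply]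
    refine Finset.sum_congr rfl (fun i _ => ?_)
    rw [mul_comm]
    rfl
  rw [h1]
  exact Submodule.sum_mem _ (fun i _ => Submodule.smul_mem _ _ (hg i))

theorem shiftFun_iterate_mem (P : ValuationSubring Kb) (O : HopfOrder p W act)
    (u : (W → Kb) →ₗ[Kb] Kb) (hu : ∀ f ∈ spanP P O, u f ∈ P) {f : W → Kb}
    (hf : f ∈ spanP P O) (n : ℕ) : (shiftFun u)^[n] f ∈ spanP P O := by
  induction n with
  | zero => exact hf
  | succ n ih =>
    rw [Function.iterate_succ_apply']
    exact shiftFun_mem P O u hu ih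

/-! ### Characters -/

/-- FULL for the `P`-span: every function has a `p`-power multiple in the `P`-span. -/
theorem spanP_full [Fact p.Prime] (P : ValuationSubring Kb) (hP : P.LiesOverPrime p)
    (hdvd : DvdProp p P) (O : HopfOrder p W act) (f : W → Kb) :
    ∃ N : ℕ, (fun w => (p : Kb) ^ N * f w) ∈ spanP P O := by
  classical
  obtain ⟨a, rfl⟩ := exists_coeff O f
  choose m hm using fun i => exists_pow_mul_mem P hdvd (a i)
  refine ⟨∑ i, m i, ?_⟩
  rw [mem_spanP_iff P hP O]
  refine ⟨fun i => (p : Kb) ^ (∑ i, m i) * a i, fun i => hm i _ ?_, ?_⟩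
  · exact Finset.single_le_sum (fun j _ => Nat.zero_le (m j)) (Finset.mem_univ i)
  · funext w
    simp only [Finset.sum_apply, Pi.smul_apply, smul_eq_mul, Finset.mul_sum, mul_assoc]

/-- A functional which is `P`-valued on the `P`-span of a Hopf order is `P`-valued on
characters. -/
theorem char_apply_mem [Fact p.Prime] (P : ValuationSubring Kb) (hP : P.LiesOverPrime p)
    (hint : IntProp p P) (hdvd : DvdProp p P) (O : HopfOrder p W act)
    (u : (W → Kb) →ₗ[Kb] Kb) (hu : ∀ f ∈ spanP P O, u f ∈ P) (χ : W → Kb)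
    (hmul : ∀ w w', χ (w + w') = χ w * χ w') (h0 : χ 0 = 1) : u χ ∈ P := by
  obtain ⟨N, hN⟩ := spanP_full P hP hdvd O χ
  refine hint _ ⟨N, fun n => ?_⟩
  have h1 := shiftFun_iterate_mem P O u hu hN n
  rw [shiftFun_iterate_char u χ hmul] at h1
  have h2 := spanP_mem P hP O h1 0
  simpa [h0] using h2

/-- **FFL-CHAR**: a character lies in the `P`-span of a Hopf order. -/
theorem char_mem_spanP [Fact p.Prime] (P : ValuationSubring Kb) (hP : P.LiesOverPrime p)
    (hint : IntProp p P) (hdvd : DvdProp p P) (O : HopfOrder p W act) (χ : W → Kb)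
    (hmul : ∀ w w', χ (w + w') = χ w * χ w') (h0 : χ 0 = 1) : χ ∈ spanP P O := by
  classical
  -- the basis of all functions given by the basis functions of `O.alg`
  let b : Module.Basis (SpanIdx O) Kb (W → Kb) :=
    Module.Basis.mk (spanFun_linearIndependent O) (spanFun_span_eq_top O).ge
  have hb : ∀ i, b i = spanFun O i := fun i => by simp [b]
  -- the coordinate functionals are `P`-valued on the `P`-span
  have hcoord : ∀ i, ∀ f ∈ spanP P O, b.coord i f ∈ P := by
    intro i f hf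
    obtain ⟨a, ha, rfl⟩ := (mem_spanP_iff P hP O f).1 hf
    have h1 : b.coord i (∑ j, a j • spanFun O j) = a i := by
      have h2 : (∑ j, a j • spanFun O j) = ∑ j, a j • b j := by simp only [hb]
      rw [h2, Module.Basis.coord_apply, Module.Basis.repr_sum_self]
    rw [h1]
    exact ha i
  rw [mem_spanP_iff P hP O]
  refine ⟨fun i => b.coord i χ, fun i => char_apply_mem P hP hint hdvd O _ (hcoord i) χ hmul h0,
    ?_⟩
  have h3 := (b.sum_repr χ).symm
  simp only [hb] at h3
  exact h3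

/-- **FFL-CHAR**, inertia-equivariant form: an inertia-equivariant character lies in the
`R'`-span of a Hopf order. -/
theorem char_mem_spanB [Fact p.Prime] (P : ValuationSubring Kb) (hP : P.LiesOverPrime p)
    (hint : IntProp p P) (hdvd : DvdProp p P) (O : HopfOrder p W act) (χ : W → Kb)
    (hmul : ∀ w w', χ (w + w') = χ w * χ w') (h0 : χ 0 = 1)
    (hequiv : ∀ σ ∈ P.inertiaSubgroupIn ℚ, ∀ w, χ (act σ w) = σ (χ w)) : χ ∈ spanB P O := by
  obtain ⟨a, ha, rfl⟩ := (mem_spanP_iff P hP O χ).1 (char_mem_spanP P hP hint hdvd O χ hmul h0)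
  rw [mem_spanB_iff P hP O]
  exact ⟨a, fun i => ⟨ha i, fun σ hσ => coeff_fixed O a σ (hequiv σ hσ) i⟩, rfl⟩

end Fermat.Agent.FFL
end MergeWrap_Lib_FFL_Char

section MergeWrap_Lib_FFL_FB_DiscVal -- from Lib/FFL/FB/DiscVal.lean

set_option autoImplicit false

namespace Fermat.Agent.FFL

local notation "Kb" => AlgebraicClosure ℚ
local notation "GK" => (AlgebraicClosure ℚ ≃ₐ[ℚ] AlgebraicClosure ℚ)

variable {p : ℕ} {P : ValuationSubring Kb}

/-- `x` is a unit of `P`. -/
def IsPUnit (P : ValuationSubring Kb) (x : Kb) : Prop := P.valuation x = 1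

theorem IsPUnit.mem {x : Kb} (h : IsPUnit P x) : x ∈ P :=
  (P.valuation_le_one_iff x).1 (le_of_eq h)

theorem IsPUnit.ne_zero {x : Kb} (h : IsPUnit P x) : x ≠ 0 := by
  intro h0
  have h1 : P.valuation x = 1 := h
  rw [h0, map_zero] at h1
  exact zero_ne_one h1

theorem IsPUnit.not_mem_nonunits {x : Kb} (h : IsPUnit P x) : x ∉ P.nonunits := by
  intro hx
  have h1 := (P.mem_nonunits_iff).1 hx
  rw [show P.valuation x = 1 from h] at h1
  exact lt_irrefl _ h1

theorem isPUnit_of_mem_of_not_mem_nonunits {x : Kb} (h1 : x ∈ P) (h2 : x ∉ P.nonunits) :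
    IsPUnit P x := by
  have h1' : P.valuation x ≤ 1 := (P.valuation_le_one_iff x).2 h1
  have h2' : ¬ P.valuation x < 1 := fun h => h2 ((P.mem_nonunits_iff).2 h)
  exact le_antisymm h1' (not_lt.1 h2')

theorem IsPUnit.mul {x y : Kb} (hx : IsPUnit P x) (hy : IsPUnit P y) : IsPUnit P (x * y) := by
  unfold IsPUnit at *
  rw [map_mul, hx, hy, one_mul]

theorem IsPUnit.inv {x : Kb} (hx : IsPUnit P x) : IsPUnit P x⁻¹ := by
  unfold IsPUnit at *
  rw [map_inv₀, hx, inv_one]

theorem IsPUnit.div {x y : Kb} (hx : IsPUnit P x) (hy : IsPUnit P y) : IsPUnit P (x / y) := by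
  rw [div_eq_mul_inv]
  exact hx.mul hy.inv

theorem IsPUnit.pow {x : Kb} (hx : IsPUnit P x) (n : ℕ) : IsPUnit P (x ^ n) := by
  unfold IsPUnit at *
  rw [map_pow, hx, one_pow]

theorem isPUnit_one : IsPUnit P (1 : Kb) := by
  unfold IsPUnit
  rw [map_one]

theorem isPUnit_of_pow {x : Kb} {n : ℕ} (hn : n ≠ 0) (hx : IsPUnit P (x ^ n)) : IsPUnit P x := by
  unfold IsPUnit at *
  rw [map_pow] at hx
  exact (pow_eq_one_iff.1 hx).resolve_right hn

theorem isPUnit_of_pow_eq_one {x : Kb} {n : ℕ} (hn : n ≠ 0) (hx : x ^ n = 1) : IsPUnit P x :=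
  isPUnit_of_pow hn (by rw [hx]; exact isPUnit_one)

/-- Adding an element of the maximal ideal to a unit gives a unit. -/
theorem IsPUnit.add_nonunit {x y : Kb} (hx : IsPUnit P x) (hy : y ∈ P.nonunits) :
    IsPUnit P (x + y) := by
  apply isPUnit_of_mem_of_not_mem_nonunits
  · exact P.add_mem _ _ hx.mem ((P.valuation_le_one_iff y).1 ((P.mem_nonunits_iff).1 hy).le)
  · intro h
    apply hx.not_mem_nonunits
    have h1 : P.valuation (x + y) < 1 := (P.mem_nonunits_iff).1 h
    have h2 : P.valuation y < 1 := (P.mem_nonunits_iff).1 hy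
    have h3 : x = (x + y) - y := by ring
    rw [h3]
    exact (P.mem_nonunits_iff).2 (lt_of_le_of_lt (Valuation.map_sub _ _ _) (max_lt h1 h2))

theorem disc_nonunit_mem {x : Kb} (hx : x ∈ P.nonunits) : x ∈ P :=
  (P.valuation_le_one_iff x).1 ((P.mem_nonunits_iff).1 hx).le

theorem disc_mul_nonunit {x y : Kb} (hx : x ∈ P) (hy : y ∈ P.nonunits) : x * y ∈ P.nonunits := by
  rw [P.mem_nonunits_iff] at hy ⊢
  rw [map_mul]
  have hx' : P.valuation x ≤ 1 := (P.valuation_le_one_iff x).2 hx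
  calc P.valuation x * P.valuation y ≤ 1 * P.valuation y := mul_le_mul_left hx' _
    _ = P.valuation y := one_mul _
    _ < 1 := hy

theorem disc_add_nonunit {x y : Kb} (hx : x ∈ P.nonunits) (hy : y ∈ P.nonunits) :
    x + y ∈ P.nonunits := by
  rw [P.mem_nonunits_iff] at *
  exact lt_of_le_of_lt (Valuation.map_add _ _ _) (max_lt hx hy)

theorem disc_sum_nonunit {ι : Type*} (s : Finset ι) (f : ι → Kb)
    (h : ∀ i ∈ s, f i ∈ P.nonunits) : ∑ i ∈ s, f i ∈ P.nonunits := by
  classical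
  induction s using Finset.induction_on with
  | empty =>
    rw [Finset.sum_empty, P.mem_nonunits_iff, map_zero]
    exact zero_lt_one
  | insert a s ha ih =>
    rw [Finset.sum_insert ha]
    exact disc_add_nonunit (h a (Finset.mem_insert_self a s))
      (ih fun i hi => h i (Finset.mem_insert_of_mem hi))

/-! ### The inertia group preserves `P` -/

theorem disc_inertia_mem {σ : GK} (hσ : σ ∈ P.inertiaSubgroupIn ℚ) {x : Kb} (hx : x ∈ P) :
    σ x ∈ P := by
  have h1 := Fermat.Agent.Cyclo.inertia_sub_mem_nonunits P hσ hx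
  have h2 : σ x = (σ x - x) + x := by ring
  rw [h2]
  exact P.add_mem _ _ (disc_nonunit_mem h1) hx

theorem disc_inertia_mem_nonunits {σ : GK} (hσ : σ ∈ P.inertiaSubgroupIn ℚ) {x : Kb}
    (hx : x ∈ P.nonunits) : σ x ∈ P.nonunits := by
  have h1 := Fermat.Agent.Cyclo.inertia_sub_mem_nonunits P hσ (disc_nonunit_mem hx)
  have h2 : σ x = (σ x - x) + x := by ring
  rw [h2]
  exact disc_add_nonunit h1 hx

theorem disc_inertia_isPUnit {σ : GK} (hσ : σ ∈ P.inertiaSubgroupIn ℚ) {x : Kb}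
    (hx : IsPUnit P x) : IsPUnit P (σ x) := by
  have h1 := Fermat.Agent.Cyclo.inertia_sub_mem_nonunits P hσ hx.mem
  have h2 : σ x = x + (σ x - x) := by ring
  rw [h2]
  exact hx.add_nonunit h1

theorem disc_inertia_pow_mem {g : GK} (hg : g ∈ P.inertiaSubgroupIn ℚ) (t : ℕ) :
    g ^ t ∈ P.inertiaSubgroupIn ℚ :=
  Subgroup.pow_mem _ hg t

/-! ### Roots of unity of order prime to `p` -/

/-- Roots of unity of order prime to `p` are fixed by the inertia group. -/
theorem disc_root_fixed (hp : p.Prime) (hP : P.LiesOverPrime p) {d : ℕ} (hd0 : d ≠ 0)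
    (hd : ¬ p ∣ d) {σ : GK} (hσ : σ ∈ P.inertiaSubgroupIn ℚ) {ζ : Kb} (hζ : ζ ^ d = 1) :
    σ ζ = ζ := by
  have hu : IsPUnit P ζ := isPUnit_of_pow_eq_one hd0 hζ
  have h1 := Fermat.Agent.Cyclo.inertia_sub_mem_nonunits P hσ hu.mem
  have h2 : (σ ζ * ζ⁻¹) ^ d = 1 := by
    rw [mul_pow, ← map_pow, hζ, map_one, one_mul, inv_pow, hζ, inv_one]
  have h3 : σ ζ * ζ⁻¹ - 1 ∈ P.nonunits := by
    have : σ ζ * ζ⁻¹ - 1 = ζ⁻¹ * (σ ζ - ζ) := by
      field_simp [hu.ne_zero]
    rw [this]
    exact disc_mul_nonunit hu.inv.mem h1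
  have h4 := Fermat.Agent.Cyclo.eq_one_of_sub_one_mem_nonunits P hd0 h2
    (Fermat.Agent.Cyclo.natCast_not_mem_nonunits P hp hP hd) h3
  have h5 : σ ζ = (σ ζ * ζ⁻¹) * ζ := by
    field_simp [hu.ne_zero]
  rw [h5, h4, one_mul]

/-! ### Valuations of eigenvectors -/

/-- An element `y ≠ 0` of the maximal ideal with `y ^ d` fixed by inertia satisfies
`y ^ d = p ^ k * u` with `k ≥ 1` and `u` a unit of `P` fixed by inertia. -/
theorem disc_exists_pow_eq (hp : p.Prime) (hP : P.LiesOverPrime p) {d : ℕ} (hd0 : d ≠ 0)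
    {y : Kb} (hy0 : y ≠ 0) (hy : y ∈ P.nonunits)
    (hfix : ∀ σ ∈ P.inertiaSubgroupIn ℚ, σ (y ^ d) = y ^ d) :
    ∃ (k : ℕ) (u : Kb), 1 ≤ k ∧ IsPUnit P u ∧ y ^ d = (p : Kb) ^ k * u := by
  have hyd : y ^ d ∈ inertiaRing P :=
    ⟨pow_mem (disc_nonunit_mem hy) d, hfix⟩
  obtain ⟨k, u, hu, hu', hk⟩ := exists_eq_pow_mul_unit hp.ne_zero hP (unrProp p hp P hP)
    (dvdProp hp hP) hyd (pow_ne_zero d hy0)
  have hu0 : u ≠ 0 := by
    rintro rfl
    rw [mul_zero] at hk
    exact pow_ne_zero d hy0 hk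
  have huU : IsPUnit P u := by
    have h1 : P.valuation u ≤ 1 := (P.valuation_le_one_iff u).2 hu.1
    have h2 : P.valuation u⁻¹ ≤ 1 := (P.valuation_le_one_iff _).2 hu'.1
    rw [map_inv₀] at h2
    have h3 : P.valuation u ≠ 0 := (Valuation.ne_zero_iff _).2 hu0
    have h4 : 1 ≤ P.valuation u := (inv_le_one₀ (zero_lt_iff.2 h3)).1 h2
    exact le_antisymm h1 h4
  refine ⟨k, u, ?_, huU, hk⟩
  by_contra hk0
  have hk0' : k = 0 := by omega
  rw [hk0', pow_zero, one_mul] at hk
  have h1 : IsPUnit P y := isPUnit_of_pow hd0 (by rw [hk]; exact huU)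
  exact h1.not_mem_nonunits hy

/-- The exponent `k` in `y ^ d = p ^ k * u` is unique. -/
theorem disc_exponent_unique (hp : p.Prime) (hP : P.LiesOverPrime p) {z : Kb} {k k' : ℕ}
    {u u' : Kb} (hu : IsPUnit P u) (hu' : IsPUnit P u') (h : z = (p : Kb) ^ k * u)
    (h' : z = (p : Kb) ^ k' * u') : k = k' := by
  have hv : P.valuation (p : Kb) < 1 := (P.mem_nonunits_iff).1 hP
  have hp0 : (p : Kb) ≠ 0 := Nat.cast_ne_zero.2 hp.ne_zero
  have hv0 : P.valuation (p : Kb) ≠ 0 := (Valuation.ne_zero_iff _).2 hp0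
  have h1 : P.valuation (p : Kb) ^ k = P.valuation (p : Kb) ^ k' := by
    have e1 : P.valuation z = P.valuation (p : Kb) ^ k := by
      rw [h, map_mul, map_pow, show P.valuation u = 1 from hu, mul_one]
    have e2 : P.valuation z = P.valuation (p : Kb) ^ k' := by
      rw [h', map_mul, map_pow, show P.valuation u' = 1 from hu', mul_one]
    rw [← e1, e2]
  by_contra hne
  rcases Nat.lt_or_gt_of_ne hne with hlt | hlt
  · have := pow_lt_pow_right_of_lt_one₀ (zero_lt_iff.2 hv0) hv hlt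
    rw [h1] at this
    exact lt_irrefl _ this
  · have := pow_lt_pow_right_of_lt_one₀ (zero_lt_iff.2 hv0) hv hlt
    rw [h1] at this
    exact lt_irrefl _ this

/-- **The eigenvalue is determined by the class of the exponent modulo `d`.**  Let `g ∈ I`,
`g y = a y`, `g y' = a' y'` with `a ^ d = a' ^ d = 1` (`p ∤ d`), `y ^ d = p ^ k u`,
`y' ^ d = p ^ (k + d l) u'`.  Then `a = a'`. -/
theorem disc_eigenvalue_eq_aux (hp : p.Prime) (hP : P.LiesOverPrime p) {d : ℕ} (hd0 : d ≠ 0)
    (hd : ¬ p ∣ d) {g : GK} (hg : g ∈ P.inertiaSubgroupIn ℚ) {y y' a a' u u' : Kb} {k l : ℕ}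
    (ha : a ^ d = 1) (ha' : a' ^ d = 1) (hy : g y = a * y) (hy' : g y' = a' * y')
    (hu : IsPUnit P u) (hu' : IsPUnit P u') (hk : y ^ d = (p : Kb) ^ k * u)
    (hk' : y' ^ d = (p : Kb) ^ (k + d * l) * u') : a = a' := by
  have hp0 : (p : Kb) ≠ 0 := Nat.cast_ne_zero.2 hp.ne_zero
  have hy0 : y ≠ 0 := by
    rintro rfl
    rw [zero_pow hd0] at hk
    exact (mul_ne_zero (pow_ne_zero k hp0) hu.ne_zero) hk.symm
  have ha0 : a ≠ 0 := by
    rintro rfl
    rw [zero_pow hd0] at ha
    exact zero_ne_one ha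
  set w : Kb := y' / (y * (p : Kb) ^ l) with hw
  have hwd : w ^ d = u' / u := by
    rw [hw, div_pow, mul_pow, hk, hk', ← pow_mul, pow_add, mul_comm l d]
    field_simp [hu.ne_zero]
  have hwU : IsPUnit P w := isPUnit_of_pow hd0 (by rw [hwd]; exact hu'.div hu)
  have hgw : g w = (a' / a) * w := by
    rw [hw, map_div₀, map_mul, hy, hy', map_pow, map_natCast]
    field_simp
  have h1 := Fermat.Agent.Cyclo.inertia_sub_mem_nonunits P hg hwU.mem
  have h2 : a' / a - 1 ∈ P.nonunits := by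
    have : a' / a - 1 = w⁻¹ * (g w - w) := by
      rw [hgw]
      field_simp [hwU.ne_zero]
    rw [this]
    exact disc_mul_nonunit hwU.inv.mem h1
  have h3 : (a' / a) ^ d = 1 := by rw [div_pow, ha, ha', div_one]
  have h4 := Fermat.Agent.Cyclo.eq_one_of_sub_one_mem_nonunits P hd0 h3
    (Fermat.Agent.Cyclo.natCast_not_mem_nonunits P hp hP hd) h2
  have h5 : a' = (a' / a) * a := by field_simp
  rw [h5, h4, one_mul]

/-- Symmetric form: exponents congruent modulo `d` force equal eigenvalues. -/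
theorem disc_eigenvalue_eq (hp : p.Prime) (hP : P.LiesOverPrime p) {d : ℕ} (hd0 : d ≠ 0)
    (hd : ¬ p ∣ d) {g : GK} (hg : g ∈ P.inertiaSubgroupIn ℚ) {y y' a a' u u' : Kb} {k k' : ℕ}
    (ha : a ^ d = 1) (ha' : a' ^ d = 1) (hy : g y = a * y) (hy' : g y' = a' * y')
    (hu : IsPUnit P u) (hu' : IsPUnit P u') (hk : y ^ d = (p : Kb) ^ k * u)
    (hk' : y' ^ d = (p : Kb) ^ k' * u') (hmod : k % d = k' % d) : a = a' := by
  rcases le_total k k' with hle | hle
  · obtain ⟨l, hl⟩ : ∃ l, k' = k + d * l := by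
      have h1 : (k' - k) % d = 0 := Nat.sub_mod_eq_zero_of_mod_eq hmod.symm
      obtain ⟨l, hl⟩ := Nat.dvd_of_mod_eq_zero h1
      exact ⟨l, by omega⟩
    rw [hl] at hk'
    exact disc_eigenvalue_eq_aux hp hP hd0 hd hg ha ha' hy hy' hu hu' hk hk'
  · obtain ⟨l, hl⟩ : ∃ l, k = k' + d * l := by
      have h1 : (k - k') % d = 0 := Nat.sub_mod_eq_zero_of_mod_eq hmod
      obtain ⟨l, hl⟩ := Nat.dvd_of_mod_eq_zero h1
      exact ⟨l, by omega⟩
    rw [hl] at hk
    exact (disc_eigenvalue_eq_aux hp hP hd0 hd hg ha' ha hy' hy hu' hu hk' hk).symm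

end Fermat.Agent.FFL
end MergeWrap_Lib_FFL_FB_DiscVal

section MergeWrap_Lib_FFL_FB_DiscEig -- from Lib/FFL/FB/DiscEig.lean

set_option autoImplicit false

namespace Fermat.Agent.FFL

local notation "Kb" => AlgebraicClosure ℚ
local notation "GK" => (AlgebraicClosure ℚ ≃ₐ[ℚ] AlgebraicClosure ℚ)

variable {p : ℕ} {P : ValuationSubring Kb}

/-- The `ζ ^ r`-eigen-component of `x` with respect to `g` (of order `d` on `x`). -/
noncomputable def eigComp (g : GK) (ζ : Kb) (d r : ℕ) (x : Kb) : Kb :=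
  (d : Kb)⁻¹ * ∑ t ∈ Finset.range d, (ζ⁻¹) ^ (r * t) * (g ^ t) x

theorem disc_sum_mem {ι : Type*} (s : Finset ι) (f : ι → Kb) (h : ∀ i ∈ s, f i ∈ P) :
    ∑ i ∈ s, f i ∈ P :=
  sum_mem h

theorem disc_natCast_isPUnit (hp : p.Prime) (hP : P.LiesOverPrime p) {d : ℕ} (hd : ¬ p ∣ d) :
    IsPUnit P (d : Kb) :=
  isPUnit_of_mem_of_not_mem_nonunits (natCast_mem P d)
    (Fermat.Agent.Cyclo.natCast_not_mem_nonunits P hp hP hd)

theorem eigComp_mem_nonunits (hp : p.Prime) (hP : P.LiesOverPrime p) {d : ℕ} (hd0 : d ≠ 0)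
    (hd : ¬ p ∣ d) {g : GK} (hg : g ∈ P.inertiaSubgroupIn ℚ) {ζ : Kb} (hζ : ζ ^ d = 1) (r : ℕ)
    {x : Kb} (hx : x ∈ P.nonunits) : eigComp g ζ d r x ∈ P.nonunits := by
  unfold eigComp
  refine disc_mul_nonunit (disc_natCast_isPUnit hp hP hd).inv.mem ?_
  refine disc_sum_nonunit _ _ (fun t _ => ?_)
  refine disc_mul_nonunit ?_ (disc_inertia_mem_nonunits (disc_inertia_pow_mem hg t) hx)
  exact ((isPUnit_of_pow_eq_one hd0 hζ).inv.pow _).mem

theorem eigComp_mem (hp : p.Prime) (hP : P.LiesOverPrime p) {d : ℕ} (hd0 : d ≠ 0)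
    (hd : ¬ p ∣ d) {g : GK} (hg : g ∈ P.inertiaSubgroupIn ℚ) {ζ : Kb} (hζ : ζ ^ d = 1) (r : ℕ)
    {x : Kb} (hx : x ∈ P) : eigComp g ζ d r x ∈ P := by
  unfold eigComp
  refine P.mul_mem _ _ (disc_natCast_isPUnit hp hP hd).inv.mem ?_
  refine disc_sum_mem _ _ (fun t _ => ?_)
  refine P.mul_mem _ _ ?_ (disc_inertia_mem (disc_inertia_pow_mem hg t) hx)
  exact ((isPUnit_of_pow_eq_one hd0 hζ).inv.pow _).mem

/-- A `d`-periodic function has the same sum over every window of length `d`. -/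
theorem disc_sum_range_shift {M : Type*} [AddCommGroup M] (f : ℕ → M) (d : ℕ)
    (hper : ∀ t, f (t + d) = f t) (s : ℕ) :
    ∑ t ∈ Finset.range d, f (s + t) = ∑ t ∈ Finset.range d, f t := by
  induction s with
  | zero => simp
  | succ s ih =>
    rw [← ih]
    have h1 : ∑ t ∈ Finset.range (d + 1), f (s + t) =
        ∑ t ∈ Finset.range d, f (s + 1 + t) + f s := by
      rw [Finset.sum_range_succ']
      congr 1
      refine Finset.sum_congr rfl (fun t _ => ?_)
      congr 1
      omega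
    have h2 : ∑ t ∈ Finset.range (d + 1), f (s + t) =
        ∑ t ∈ Finset.range d, f (s + t) + f (s + d) := Finset.sum_range_succ _ _
    have h3 : f (s + d) = f s := hper s
    rw [h3] at h2
    exact add_right_cancel (h1.symm.trans h2)

theorem disc_pow_apply_add (g : GK) (a b : ℕ) (x : Kb) : (g ^ (a + b)) x = (g ^ a) ((g ^ b) x) := by
  rw [pow_add]
  rfl

/-- If `σ` acts as `g ^ s` on the orbit of `x`, it multiplies the `r`-th eigen-component
by `ζ ^ (r s)`. -/
theorem eigComp_map {d : ℕ} {g σ : GK} {ζ : Kb} (hζ : ζ ^ d = 1) (hσζ : σ ζ = ζ) (r : ℕ)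
    {x : Kb} (hgd : (g ^ d) x = x) {s : ℕ} (hσ : ∀ t, σ ((g ^ t) x) = (g ^ (s + t)) x) :
    σ (eigComp g ζ d r x) = ζ ^ (r * s) * eigComp g ζ d r x := by
  by_cases hd : d = 0
  · subst hd
    unfold eigComp
    rw [Finset.range_zero, Finset.sum_empty, mul_zero, map_zero, mul_zero]
  have hζ0 : ζ ≠ 0 := by
    rintro rfl
    rw [zero_pow hd] at hζ
    exact zero_ne_one hζ
  unfold eigComp
  rw [map_mul, map_inv₀, map_natCast, map_sum]
  have hinv : σ ζ⁻¹ = ζ⁻¹ := by rw [map_inv₀, hσζ]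
  have h1 : ∀ t, σ ((ζ⁻¹) ^ (r * t) * (g ^ t) x) = (ζ⁻¹) ^ (r * t) * (g ^ (s + t)) x := by
    intro t
    rw [map_mul, map_pow, hinv, hσ]
  simp only [h1]
  -- the function `t ↦ ζ^{-r t} g^t x` is `d`-periodic
  have hz : (ζ⁻¹) ^ d = 1 := by rw [inv_pow, hζ, inv_one]
  have hper : ∀ t, (fun t => (ζ⁻¹) ^ (r * t) * (g ^ t) x) (t + d) =
      (fun t => (ζ⁻¹) ^ (r * t) * (g ^ t) x) t := by
    intro t
    show (ζ⁻¹) ^ (r * (t + d)) * (g ^ (t + d)) x = (ζ⁻¹) ^ (r * t) * (g ^ t) x
    have hz3 : (ζ⁻¹) ^ (r * d) = 1 := by rw [mul_comm, pow_mul, hz, one_pow]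
    rw [disc_pow_apply_add, hgd, mul_add, pow_add, hz3, mul_one]
  have hz2 : ζ ^ (r * s) * (ζ⁻¹) ^ (r * s) = 1 := by
    rw [← mul_pow, mul_inv_cancel₀ hζ0, one_pow]
  have h2 : ∀ t, (ζ⁻¹) ^ (r * t) * (g ^ (s + t)) x =
      ζ ^ (r * s) * (fun t => (ζ⁻¹) ^ (r * t) * (g ^ t) x) (s + t) := by
    intro t
    show (ζ⁻¹) ^ (r * t) * (g ^ (s + t)) x =
      ζ ^ (r * s) * ((ζ⁻¹) ^ (r * (s + t)) * (g ^ (s + t)) x)
    have h3 : ζ ^ (r * s) * ((ζ⁻¹) ^ (r * (s + t)) * (g ^ (s + t)) x) =
        (ζ ^ (r * s) * (ζ⁻¹) ^ (r * s)) * ((ζ⁻¹) ^ (r * t) * (g ^ (s + t)) x) := by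
      rw [mul_add r s t, pow_add (ζ⁻¹)]
      ring
    rw [h3, hz2, one_mul]
  have key := disc_sum_range_shift (fun t => (ζ⁻¹) ^ (r * t) * (g ^ t) x) d hper s
  beta_reduce at key
  rw [Finset.sum_congr rfl (fun t _ => h2 t)]
  beta_reduce
  rw [← Finset.mul_sum, key]
  ring

/-- The eigen-component is an eigenvector of `g`. -/
theorem eigComp_map_self {d : ℕ} {g : GK} {ζ : Kb} (hζ : ζ ^ d = 1) (hgζ : g ζ = ζ) (r : ℕ)
    {x : Kb} (hgd : (g ^ d) x = x) :
    g (eigComp g ζ d r x) = ζ ^ r * eigComp g ζ d r x := by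
  have h := eigComp_map (σ := g) hζ hgζ r hgd (s := 1) (fun t => by
    rw [disc_pow_apply_add, pow_one])
  rwa [mul_one] at h

/-- Geometric sum of a root of unity. -/
theorem disc_geom_sum {d : ℕ} {η : Kb} (hη : η ^ d = 1) (hη1 : η ≠ 1) :
    ∑ r ∈ Finset.range d, η ^ r = 0 := by
  have h := mul_neg_geom_sum η d
  rw [hη, sub_self] at h
  rcases mul_eq_zero.1 h with h1 | h1
  · exact absurd (sub_eq_zero.1 h1).symm hη1
  · exact h1

/-- **Inverse Fourier transform.** -/
theorem sum_eigComp {d : ℕ} (g : GK) {ζ : Kb} (hζ : IsPrimitiveRoot ζ d) (hd0 : d ≠ 0)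
    (x : Kb) {s : ℕ} (hs : s < d) :
    ∑ r ∈ Finset.range d, ζ ^ (r * s) * eigComp g ζ d r x = (g ^ s) x := by
  have hζ0 : ζ ≠ 0 := hζ.ne_zero hd0
  have hd0' : (d : Kb) ≠ 0 := Nat.cast_ne_zero.2 hd0
  unfold eigComp
  have h1 : ∀ r ∈ Finset.range d, ζ ^ (r * s) * ((d : Kb)⁻¹ *
      ∑ t ∈ Finset.range d, (ζ⁻¹) ^ (r * t) * (g ^ t) x) =
      ∑ t ∈ Finset.range d, (d : Kb)⁻¹ * (g ^ t) x * (ζ ^ s * (ζ⁻¹) ^ t) ^ r := by
    intro r _
    rw [Finset.mul_sum, Finset.mul_sum]
    refine Finset.sum_congr rfl (fun t _ => ?_)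
    rw [mul_pow, ← pow_mul, ← pow_mul, mul_comm s r, mul_comm t r]
    ring
  rw [Finset.sum_congr rfl h1, Finset.sum_comm]
  have h2 : ∀ t ∈ Finset.range d, ∑ r ∈ Finset.range d,
      (d : Kb)⁻¹ * (g ^ t) x * (ζ ^ s * (ζ⁻¹) ^ t) ^ r =
      if t = s then (g ^ s) x else 0 := by
    intro t ht
    rw [← Finset.mul_sum]
    split_ifs with hts
    · subst hts
      have : ζ ^ t * (ζ⁻¹) ^ t = 1 := by
        rw [← mul_pow, mul_inv_cancel₀ hζ0, one_pow]
      rw [this]
      simp only [one_pow, Finset.sum_const, Finset.card_range, nsmul_eq_mul, mul_one]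
      field_simp
    · have hη : (ζ ^ s * (ζ⁻¹) ^ t) ^ d = 1 := by
        rw [mul_pow, ← pow_mul, ← pow_mul, mul_comm s d, mul_comm t d, pow_mul, pow_mul,
          hζ.pow_eq_one, inv_pow, hζ.pow_eq_one, one_pow, inv_one, one_pow, one_mul]
      have hη1 : ζ ^ s * (ζ⁻¹) ^ t ≠ 1 := by
        intro h
        apply hts
        have h3 : ζ ^ s = ζ ^ t := by
          have h4 : ζ ^ s * (ζ⁻¹) ^ t * ζ ^ t = ζ ^ t := by rw [h, one_mul]
          rw [mul_assoc, ← mul_pow, inv_mul_cancel₀ hζ0, one_pow, mul_one] at h4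
          exact h4
        exact (hζ.pow_inj hs (Finset.mem_range.1 ht) h3).symm
      rw [disc_geom_sum hη hη1, mul_zero]
  rw [Finset.sum_congr rfl h2, Finset.sum_ite_eq' (Finset.range d) s]
  rw [if_pos (Finset.mem_range.2 hs)]

/-! ### The combinatorial lemma -/

/-- `d` positive integers which are pairwise incongruent modulo `d` have sum at least
`1 + 2 + ⋯ + d`. -/
theorem disc_sum_ge {d : ℕ} (m : Fin d → ℕ) (h1 : ∀ r, 1 ≤ m r)
    (hinj : ∀ r r', m r % d = m r' % d → r = r') :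
    ∑ r : Fin d, ((r : ℕ) + 1) ≤ ∑ r, m r ∧
    ((∑ r, m r = ∑ r : Fin d, ((r : ℕ) + 1)) → 0 < d → ∃ r₁, m r₁ = 1) := by
  rcases Nat.eq_zero_or_pos d with hd | hd
  · subst hd
    exact ⟨by simp, fun _ h => absurd h (lt_irrefl 0)⟩
  let ρ : Fin d → Fin d := fun r => ⟨(m r - 1) % d, Nat.mod_lt _ hd⟩
  have hρinj : Function.Injective ρ := by
    intro r r' h
    apply hinj
    have h2 : (m r - 1) % d = (m r' - 1) % d := congrArg Fin.val h
    have e1 : m r = (m r - 1) + 1 := by have := h1 r; omega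
    have e2 : m r' = (m r' - 1) + 1 := by have := h1 r'; omega
    rw [e1, e2, Nat.add_mod, h2, ← Nat.add_mod]
  have hρbij : Function.Bijective ρ := Finite.injective_iff_bijective.1 hρinj
  have hsum : ∑ r : Fin d, ((ρ r : ℕ) + 1) = ∑ r : Fin d, ((r : ℕ) + 1) :=
    Function.Bijective.sum_comp hρbij (fun r : Fin d => ((r : ℕ) + 1))
  have hle : ∀ r, ((ρ r : ℕ) + 1) ≤ m r := by
    intro r
    have : (m r - 1) % d ≤ m r - 1 := Nat.mod_le _ _
    have := h1 r
    show (m r - 1) % d + 1 ≤ m r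
    omega
  refine ⟨?_, fun heq _ => ?_⟩
  · rw [← hsum]
    exact Finset.sum_le_sum (fun r _ => hle r)
  · obtain ⟨r₁, hr₁⟩ := hρbij.2 ⟨0, hd⟩
    refine ⟨r₁, ?_⟩
    have h3 : ∀ r ∈ Finset.univ, ((ρ r : ℕ) + 1) = m r := by
      have := (Finset.sum_eq_sum_iff_of_le (fun r _ => hle r)).1 (by rw [hsum, heq])
      exact this
    have h4 := h3 r₁ (Finset.mem_univ _)
    rw [hr₁] at h4
    exact h4.symm

theorem disc_two_mul_sum (d : ℕ) : 2 * ∑ r : Fin d, ((r : ℕ) + 1) = d * (d + 1) := by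
  rw [Fin.sum_univ_eq_sum_range (fun r => r + 1) d]
  induction d with
  | zero => simp
  | succ d ih =>
    rw [Finset.sum_range_succ, mul_add, ih]
    ring

end Fermat.Agent.FFL
end MergeWrap_Lib_FFL_FB_DiscEig

section MergeWrap_Lib_FFL_FB_DiscMat -- from Lib/FFL/FB/DiscMat.lean

set_option autoImplicit false

namespace Fermat.Agent.FFL

local notation "Kb" => AlgebraicClosure ℚ
local notation "GK" => (AlgebraicClosure ℚ ≃ₐ[ℚ] AlgebraicClosure ℚ)

variable {p : ℕ} {P : ValuationSubring Kb}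

/-- The index type of the matrices: extra columns `E` and `J` orbits of length `d`. -/
abbrev DIdx (E J : Type) (d : ℕ) : Type := E ⊕ J × Fin d

variable {E J : Type} {d : ℕ}

/-- The matrix with columns `c₀ · e` and `g ^ s (x · j)`. -/
noncomputable def discMat (g : GK) (c₀ : DIdx E J d → E → Kb) (x : DIdx E J d → J → Kb) :
    Matrix (DIdx E J d) (DIdx E J d) Kb :=
  Matrix.of fun i c => Sum.elim (fun e => c₀ i e) (fun js => (g ^ (js.2 : ℕ)) (x i js.1)) c

/-- The matrix with columns `c₀ · e` and the eigen-components of `x · j`. -/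
noncomputable def discEig (g : GK) (ζ : Kb) (c₀ : DIdx E J d → E → Kb)
    (x : DIdx E J d → J → Kb) : Matrix (DIdx E J d) (DIdx E J d) Kb :=
  Matrix.of fun i c => Sum.elim (fun e => c₀ i e)
    (fun jr => eigComp g ζ d (jr.2 : ℕ) (x i jr.1)) c

/-- The block Fourier matrix. -/
noncomputable def discDFT (E J : Type) [DecidableEq E] [DecidableEq J] (d : ℕ) (ζ : Kb) :
    Matrix (DIdx E J d) (DIdx E J d) Kb :=
  Matrix.of fun c c' =>
    Sum.elim
      (fun e => Sum.elim (fun e' => if e = e' then (1 : Kb) else 0) (fun _ => 0) c')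
      (fun jr => Sum.elim (fun _ => (0 : Kb))
        (fun js => if jr.1 = js.1 then ζ ^ ((jr.2 : ℕ) * (js.2 : ℕ)) else 0) c') c

@[simp] theorem discMat_inl (g : GK) (c₀ : DIdx E J d → E → Kb) (x : DIdx E J d → J → Kb)
    (i : DIdx E J d) (e : E) : discMat g c₀ x i (Sum.inl e) = c₀ i e := rfl

@[simp] theorem discMat_inr (g : GK) (c₀ : DIdx E J d → E → Kb) (x : DIdx E J d → J → Kb)
    (i : DIdx E J d) (j : J) (s : Fin d) :
    discMat g c₀ x i (Sum.inr (j, s)) = (g ^ (s : ℕ)) (x i j) := rfl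

@[simp] theorem discEig_inl (g : GK) (ζ : Kb) (c₀ : DIdx E J d → E → Kb)
    (x : DIdx E J d → J → Kb) (i : DIdx E J d) (e : E) :
    discEig g ζ c₀ x i (Sum.inl e) = c₀ i e := rfl

@[simp] theorem discEig_inr (g : GK) (ζ : Kb) (c₀ : DIdx E J d → E → Kb)
    (x : DIdx E J d → J → Kb) (i : DIdx E J d) (j : J) (r : Fin d) :
    discEig g ζ c₀ x i (Sum.inr (j, r)) = eigComp g ζ d (r : ℕ) (x i j) := rfl

section
variable [DecidableEq E] [DecidableEq J]

@[simp] theorem discDFT_inl_inl (ζ : Kb) (e e' : E) :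
    discDFT E J d ζ (Sum.inl e) (Sum.inl e') = if e = e' then 1 else 0 := rfl

@[simp] theorem discDFT_inl_inr (ζ : Kb) (e : E) (js : J × Fin d) :
    discDFT E J d ζ (Sum.inl e) (Sum.inr js) = 0 := rfl

@[simp] theorem discDFT_inr_inl (ζ : Kb) (jr : J × Fin d) (e : E) :
    discDFT E J d ζ (Sum.inr jr) (Sum.inl e) = 0 := rfl

@[simp] theorem discDFT_inr_inr (ζ : Kb) (j j' : J) (r s : Fin d) :
    discDFT E J d ζ (Sum.inr (j, r)) (Sum.inr (j', s)) =
      if j = j' then ζ ^ ((r : ℕ) * (s : ℕ)) else 0 := rfl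

/-- **Fourier factorisation** of the matrix. -/
theorem discMat_eq [Fintype E] [Fintype J] (g : GK) {ζ : Kb} (hζ : IsPrimitiveRoot ζ d) (hd0 : d ≠ 0)
    (c₀ : DIdx E J d → E → Kb) (x : DIdx E J d → J → Kb) :
    discMat g c₀ x = discEig g ζ c₀ x * discDFT E J d ζ := by
  ext i c
  rw [Matrix.mul_apply, Fintype.sum_sum_type]
  rcases c with e' | ⟨j', s⟩
  · simp only [discMat_inl, discEig_inl, discDFT_inl_inl, discDFT_inr_inl, mul_zero,
      Finset.sum_const_zero, add_zero, mul_ite, mul_one]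
    rw [Finset.sum_ite_eq' Finset.univ e']
    simp
  · simp only [discMat_inr, discEig_inl, discDFT_inl_inr, mul_zero, Finset.sum_const_zero,
      zero_add]
    rw [Fintype.sum_prod_type]
    simp only [discEig_inr, discDFT_inr_inr, mul_ite, mul_zero]
    rw [Finset.sum_eq_single j']
    · simp only [if_true]
      have h := sum_eigComp g hζ hd0 (x i j') s.2
      rw [← h, ← Fin.sum_univ_eq_sum_range (fun r => ζ ^ (r * (s : ℕ)) *
        eigComp g ζ d r (x i j')) d]
      exact Finset.sum_congr rfl (fun r _ => mul_comm _ _)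
    · intro j _ hj
      simp [hj]
    · intro h
      exact absurd (Finset.mem_univ j') h

/-- The determinant of a matrix with entries in `P` is in `P`. -/
theorem disc_det_mem {n : Type*} [Fintype n] [DecidableEq n] (A : Matrix n n Kb)
    (hA : ∀ i c, A i c ∈ P) : A.det ∈ P := by
  rw [Matrix.det_apply]
  refine sum_mem (fun σ _ => ?_)
  have h1 : ∏ i, A (σ i) i ∈ P := prod_mem (fun i _ => hA _ _)
  rcases Int.units_eq_one_or (Equiv.Perm.sign σ) with h | h
  · rw [h, one_smul]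
    exact h1
  · rw [h, Units.neg_smul, one_smul]
    exact P.neg_mem _ h1

/-- The entries of the Fourier matrix are in `P`. -/
theorem discDFT_mem {ζ : Kb} (hζ : ζ ^ d = 1) (hd0 : d ≠ 0) (c c' : DIdx E J d) :
    discDFT E J d ζ c c' ∈ P := by
  rcases c with e | ⟨j, r⟩ <;> rcases c' with e' | ⟨j', s⟩
  · simp only [discDFT_inl_inl]
    split_ifs
    · exact P.one_mem
    · exact P.zero_mem
  · exact P.zero_mem
  · exact P.zero_mem
  · simp only [discDFT_inr_inr]
    split_ifs
    · exact ((isPUnit_of_pow_eq_one hd0 hζ).pow _).mem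
    · exact P.zero_mem

end

/-- A matrix with a vanishing column has determinant zero. -/
theorem disc_det_eq_zero_of_col {n : Type*} [Fintype n] [DecidableEq n] (A : Matrix n n Kb)
    (c : n) (h : ∀ i, A i c = 0) : A.det = 0 :=
  Matrix.det_eq_zero_of_column_eq_zero c h

end Fermat.Agent.FFL
end MergeWrap_Lib_FFL_FB_DiscMat

section MergeWrap_Lib_FFL_FB_DiscAux -- from Lib/FFL/FB/DiscAux.lean

set_option autoImplicit false

namespace Fermat.Agent.FFL

local notation "Kb" => AlgebraicClosure ℚ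
local notation "GK" => (AlgebraicClosure ℚ ≃ₐ[ℚ] AlgebraicClosure ℚ)

variable {p : ℕ} {P : ValuationSubring Kb} {E J : Type} {d : ℕ}

/-- `z ^ n ∈ P` implies `z ∈ P`. -/
theorem disc_mem_of_pow_mem {z : Kb} {n : ℕ} (hn : n ≠ 0) (h : z ^ n ∈ P) : z ∈ P := by
  rw [← P.valuation_le_one_iff] at h ⊢
  rw [map_pow] at h
  by_contra hlt
  rw [not_le] at hlt
  exact absurd h (not_le.2 (one_lt_pow₀ hlt hn))

/-- `z ^ n ∈ 𝔪_P` implies `z ∈ 𝔪_P`. -/
theorem disc_nonunit_of_pow {z : Kb} {n : ℕ} (h : z ^ n ∈ P.nonunits) : z ∈ P.nonunits := by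
  rw [P.mem_nonunits_iff] at h ⊢
  rw [map_pow] at h
  by_contra hlt
  rw [not_lt] at hlt
  exact absurd h (not_lt.2 (one_le_pow₀ hlt))

theorem disc_pow_nonunit {z : Kb} {n : ℕ} (hn : n ≠ 0) (h : z ∈ P.nonunits) :
    z ^ n ∈ P.nonunits := by
  rw [P.mem_nonunits_iff] at h ⊢
  rw [map_pow]
  exact pow_lt_one₀ zero_le h hn

/-- Scaling the columns: if the entries of the column `(j, r)` are divisible by `ϖ ^ m j r`,
the determinant is divisible by `ϖ ^ ∑ m`. -/
theorem disc_det_scaled [Fintype E] [DecidableEq E] [Fintype J] [DecidableEq J]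
    (Y : Matrix (DIdx E J d) (DIdx E J d) Kb) {ϖ : Kb} (hϖ : ϖ ≠ 0) (m : J → Fin d → ℕ)
    (h0 : ∀ i e, Y i (Sum.inl e) ∈ P)
    (h1 : ∀ i j r, Y i (Sum.inr (j, r)) / ϖ ^ m j r ∈ P) :
    ∃ a ∈ P, Y.det = a * ϖ ^ (∑ j, ∑ r, m j r) := by
  let δ : DIdx E J d → Kb := Sum.elim (fun _ => 1) (fun jr => ϖ ^ m jr.1 jr.2)
  have hδ : ∀ c, δ c ≠ 0 := by
    rintro (e | ⟨j, r⟩)
    · exact one_ne_zero
    · exact pow_ne_zero _ hϖ
  let Y' : Matrix (DIdx E J d) (DIdx E J d) Kb := Matrix.of fun i c => Y i c / δ c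
  have hY : Y = Y' * Matrix.diagonal δ := by
    ext i c
    rw [Matrix.mul_diagonal]
    show Y i c = Y i c / δ c * δ c
    rw [div_mul_cancel₀ _ (hδ c)]
  have hY' : ∀ i c, Y' i c ∈ P := by
    intro i c
    rcases c with e | ⟨j, r⟩
    · show Y i (Sum.inl e) / 1 ∈ P
      rw [div_one]
      exact h0 i e
    · exact h1 i j r
  refine ⟨Y'.det, disc_det_mem Y' hY', ?_⟩
  rw [hY, Matrix.det_mul, Matrix.det_diagonal, Fintype.prod_sum_type, Fintype.prod_prod_type]
  congr 1
  simp only [δ, Sum.elim_inl, Sum.elim_inr, Finset.prod_const_one, one_mul]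
  rw [← Finset.prod_pow_eq_pow_sum]
  refine Finset.prod_congr rfl (fun j _ => ?_)
  rw [Finset.prod_pow_eq_pow_sum]

/-- The `d`-th power of an eigen-component is fixed by inertia. -/
theorem eigComp_pow_fixed (hp : p.Prime) (hP : P.LiesOverPrime p) (hd0 : d ≠ 0) (hd : ¬ p ∣ d)
    {g : GK} {ζ : Kb} (hζ : ζ ^ d = 1) (r : ℕ) {x : Kb} (hgd : (g ^ d) x = x)
    (hI : ∀ σ ∈ P.inertiaSubgroupIn ℚ, ∃ s : ℕ, ∀ t : ℕ, σ ((g ^ t) x) = (g ^ (s + t)) x) :
    ∀ σ ∈ P.inertiaSubgroupIn ℚ, σ ((eigComp g ζ d r x) ^ d) = (eigComp g ζ d r x) ^ d := by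
  intro σ hσ
  obtain ⟨s, hs⟩ := hI σ hσ
  have h1 := eigComp_map hζ (disc_root_fixed hp hP hd0 hd hσ hζ) r hgd hs
  rw [map_pow, h1, mul_pow, ← pow_mul, mul_comm (r * s) d, pow_mul, hζ, one_pow, one_mul]

end Fermat.Agent.FFL
end MergeWrap_Lib_FFL_FB_DiscAux

section MergeWrap_Lib_FFL_FB_Disc -- from Lib/FFL/FB/Disc.lean

set_option autoImplicit false

namespace Fermat.Agent.FFL

local notation "Kb" => AlgebraicClosure ℚ
local notation "GK" => (AlgebraicClosure ℚ ≃ₐ[ℚ] AlgebraicClosure ℚ)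

variable {p : ℕ} {P : ValuationSubring Kb} {E J : Type} {d : ℕ}

/-- The exponent property of a column of eigen-components. -/
def ColExp (p : ℕ) (P : ValuationSubring Kb) {ι : Type} (y : ι → Kb) (d n : ℕ) : Prop :=
  ∃ (i : ι) (u : Kb), IsPUnit P u ∧ (y i) ^ d = (p : Kb) ^ n * u

section Column

variable (hp : p.Prime) (hP : P.LiesOverPrime p) (hd0 : d ≠ 0)
include hp hP hd0

/-- A nonzero column in `𝔪_P` with inertia-fixed `d`-th powers has an exponent. -/
theorem colExp_exists {ι : Type} (y : ι → Kb) (hy : ∀ i, y i ∈ P.nonunits)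
    (hfix : ∀ i, ∀ σ ∈ P.inertiaSubgroupIn ℚ, σ ((y i) ^ d) = (y i) ^ d)
    (hne : ∃ i, y i ≠ 0) : ∃ n, ColExp p P y d n := by
  obtain ⟨i, hi⟩ := hne
  obtain ⟨k, u, -, hu, hk⟩ := disc_exists_pow_eq hp hP hd0 hi (hy i) (hfix i)
  exact ⟨k, i, u, hu, hk⟩

omit hp hP in
/-- The exponents of a column in `𝔪_P` are positive. -/
theorem colExp_pos {ι : Type} (y : ι → Kb) (hy : ∀ i, y i ∈ P.nonunits) {n : ℕ}
    (h : ColExp p P y d n) : 1 ≤ n := by
  obtain ⟨i, u, hu, hk⟩ := h
  by_contra hn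
  have hn0 : n = 0 := by omega
  rw [hn0, pow_zero, one_mul] at hk
  have h1 : IsPUnit P (y i) := isPUnit_of_pow hd0 (by rw [hk]; exact hu)
  exact h1.not_mem_nonunits (hy i)

/-- The entries of a column are divisible by `ϖ ^ m`, `m` the minimal exponent (`ϖ ^ d = p`). -/
theorem colExp_div_mem {ι : Type} (y : ι → Kb) (hy : ∀ i, y i ∈ P.nonunits)
    (hfix : ∀ i, ∀ σ ∈ P.inertiaSubgroupIn ℚ, σ ((y i) ^ d) = (y i) ^ d)
    {ϖ : Kb} (hϖ : ϖ ^ d = (p : Kb)) {m : ℕ} (hmin : ∀ n, ColExp p P y d n → m ≤ n) (i : ι) :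
    y i / ϖ ^ m ∈ P := by
  have hp0 : (p : Kb) ≠ 0 := Nat.cast_ne_zero.2 hp.ne_zero
  by_cases hi : y i = 0
  · rw [hi, zero_div]
    exact P.zero_mem
  obtain ⟨k, u, -, hu, hk⟩ := disc_exists_pow_eq hp hP hd0 hi (hy i) (hfix i)
  have hmk : m ≤ k := hmin k ⟨i, u, hu, hk⟩
  apply disc_mem_of_pow_mem hd0
  have h1 : (y i / ϖ ^ m) ^ d = (p : Kb) ^ (k - m) * u := by
    rw [div_pow, ← pow_mul, mul_comm m d, pow_mul, hϖ, hk]
    have : (p : Kb) ^ k = (p : Kb) ^ (k - m) * (p : Kb) ^ m := by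
      rw [← pow_add, Nat.sub_add_cancel hmk]
    rw [this]
    field_simp
  rw [h1]
  exact P.mul_mem _ _ (pow_mem (natCast_mem P p) _) hu.mem

end Column

/-- **The discriminant estimate.** -/
theorem disc_main [Fintype E] [DecidableEq E] [Fintype J] [DecidableEq J]
    (hp : p.Prime) (hP : P.LiesOverPrime p) (hd0 : d ≠ 0) (hd : ¬ p ∣ d)
    {g : GK} (hg : g ∈ P.inertiaSubgroupIn ℚ)
    (c₀ : DIdx E J d → E → Kb) (x : DIdx E J d → J → Kb)
    (hc₀ : ∀ i e, c₀ i e ∈ P) (hx : ∀ i j, x i j ∈ P.nonunits)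
    (hI : ∀ σ ∈ P.inertiaSubgroupIn ℚ, ∃ s : ℕ, ∀ i j (t : ℕ),
      σ ((g ^ t) (x i j)) = (g ^ (s + t)) (x i j))
    (hgd : ∀ i j, (g ^ d) (x i j) = x i j) :
    (discMat g c₀ x).det ^ 2 / (p : Kb) ^ (Fintype.card J * (d + 1)) ∈ P ∧
    ((discMat g c₀ x).det ^ 2 / (p : Kb) ^ (Fintype.card J * (d + 1)) ∉ P.nonunits →
      ∀ j, ∃ i, IsPUnit P ((x i j) ^ d / (p : Kb))) := by
  classical
  have hp0 : (p : Kb) ≠ 0 := Nat.cast_ne_zero.2 hp.ne_zero
  have hdpos : 0 < d := Nat.pos_of_ne_zero hd0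
  have : NeZero d := ⟨hd0⟩
  obtain ⟨ζ, hζ⟩ := HasEnoughRootsOfUnity.exists_primitiveRoot Kb d
  have hζd : ζ ^ d = 1 := hζ.pow_eq_one
  obtain ⟨ϖ, hϖ⟩ := IsAlgClosed.exists_pow_nat_eq (p : Kb) hdpos
  have hϖ0 : ϖ ≠ 0 := by
    rintro rfl
    rw [zero_pow hd0] at hϖ
    exact hp0 hϖ.symm
  have hϖm : ϖ ∈ P.nonunits := disc_nonunit_of_pow (n := d) (by rw [hϖ]; exact hP)
  have hgζ : g ζ = ζ := disc_root_fixed hp hP hd0 hd hg hζd
  -- the eigen-components
  set y : DIdx E J d → J → Fin d → Kb := fun i j r => eigComp g ζ d (r : ℕ) (x i j) with hy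
  have hym : ∀ i j r, y i j r ∈ P.nonunits := fun i j r =>
    eigComp_mem_nonunits hp hP hd0 hd hg hζd _ (hx i j)
  have hyfix : ∀ i j r, ∀ σ ∈ P.inertiaSubgroupIn ℚ, σ ((y i j r) ^ d) = (y i j r) ^ d := by
    intro i j r
    refine eigComp_pow_fixed hp hP hd0 hd hζd _ (hgd i j) (fun σ hσ => ?_)
    obtain ⟨s, hs⟩ := hI σ hσ
    exact ⟨s, fun t => hs i j t⟩
  have hyeig : ∀ i j r, g (y i j r) = ζ ^ (r : ℕ) * y i j r := fun i j r =>
    eigComp_map_self hζd hgζ _ (hgd i j)
  have hxsum : ∀ i j, x i j = ∑ r : Fin d, y i j r := by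
    intro i j
    have h := sum_eigComp g hζ hd0 (x i j) hdpos
    rw [pow_zero] at h
    have h2 : (1 : GK) (x i j) = x i j := rfl
    rw [h2] at h
    rw [← h, ← Fin.sum_univ_eq_sum_range (fun r => ζ ^ (r * 0) * eigComp g ζ d r (x i j)) d]
    refine Finset.sum_congr rfl (fun r _ => ?_)
    rw [mul_zero, pow_zero, one_mul]
  -- Fourier factorisation
  have hM : (discMat g c₀ x).det = (discEig g ζ c₀ x).det * (discDFT E J d ζ).det := by
    rw [discMat_eq g hζ hd0 c₀ x, Matrix.det_mul]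
  have hD : (discDFT E J d ζ).det ∈ P := disc_det_mem _ (discDFT_mem hζd hd0)
  by_cases hcol : ∃ j r, ∀ i, y i j r = 0
  · -- a vanishing column
    obtain ⟨j, r, hjr⟩ := hcol
    have h0 : (discEig g ζ c₀ x).det = 0 :=
      disc_det_eq_zero_of_col _ (Sum.inr (j, r)) (fun i => hjr i)
    have h1 : (discMat g c₀ x).det ^ 2 / (p : Kb) ^ (Fintype.card J * (d + 1)) = 0 := by
      rw [hM, h0, zero_mul, zero_pow two_ne_zero, zero_div]
    rw [h1]
    refine ⟨P.zero_mem, fun h => absurd ?_ h⟩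
    rw [P.mem_nonunits_iff, map_zero]
    exact zero_lt_one
  -- all columns are nonzero
  have hne : ∀ j r, ∃ i, y i j r ≠ 0 := by
    intro j r
    by_contra h
    exact hcol ⟨j, r, fun i => by_contra fun hi => h ⟨i, hi⟩⟩
  have hQ : ∀ j r, ∃ n, ColExp p P (fun i => y i j r) d n := fun j r =>
    colExp_exists hp hP hd0 _ (fun i => hym i j r) (fun i => hyfix i j r) (hne j r)
  set m : J → Fin d → ℕ := fun j r => Nat.find (hQ j r) with hm
  have hmspec : ∀ j r, ColExp p P (fun i => y i j r) d (m j r) := fun j r => Nat.find_spec (hQ j r)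
  have hmmin : ∀ j r n, ColExp p P (fun i => y i j r) d n → m j r ≤ n :=
    fun j r n h => Nat.find_min' (hQ j r) h
  have hm1 : ∀ j r, 1 ≤ m j r := fun j r => colExp_pos hd0 _ (fun i => hym i j r) (hmspec j r)
  have hdiv : ∀ i j r, y i j r / ϖ ^ m j r ∈ P := fun i j r =>
    colExp_div_mem hp hP hd0 (fun i => y i j r) (fun i => hym i j r) (fun i => hyfix i j r) hϖ
      (hmmin j r) i
  have hinj : ∀ j r r', m j r % d = m j r' % d → r = r' := by
    intro j r r' hmod
    obtain ⟨i, u, hu, hk⟩ := hmspec j r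
    obtain ⟨i', u', hu', hk'⟩ := hmspec j r'
    have h1 : (ζ ^ (r : ℕ)) ^ d = 1 := by rw [← pow_mul, mul_comm, pow_mul, hζd, one_pow]
    have h2 : (ζ ^ (r' : ℕ)) ^ d = 1 := by rw [← pow_mul, mul_comm, pow_mul, hζd, one_pow]
    have h3 := disc_eigenvalue_eq hp hP hd0 hd hg h1 h2 (hyeig i j r) (hyeig i' j r') hu hu' hk hk'
      hmod
    exact Fin.ext (hζ.pow_inj r.2 r'.2 h3)
  -- the combinatorial estimate
  set T : ℕ := ∑ r : Fin d, ((r : ℕ) + 1) with hT
  have hTj : ∀ j, T ≤ ∑ r, m j r := fun j => (disc_sum_ge (m j) (hm1 j) (hinj j)).1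
  set S : ℕ := ∑ j, ∑ r, m j r with hS
  have hST : Fintype.card J * T ≤ S := by
    rw [hS, ← smul_eq_mul, ← Finset.card_univ, ← Finset.sum_const]
    exact Finset.sum_le_sum (fun j _ => hTj j)
  have h2T : d * (d + 1) = 2 * T := (disc_two_mul_sum d).symm
  -- the scaled determinant
  obtain ⟨a, ha, hdet⟩ := disc_det_scaled (P := P) (discEig g ζ c₀ x) hϖ0 m
    (fun i e => hc₀ i e) (fun i j r => hdiv i j r)
  have hpow : (p : Kb) ^ (Fintype.card J * (d + 1)) = ϖ ^ (2 * (Fintype.card J * T)) := by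
    rw [← hϖ, ← pow_mul]
    congr 1
    calc d * (Fintype.card J * (d + 1)) = Fintype.card J * (d * (d + 1)) := by ring
      _ = Fintype.card J * (2 * T) := by rw [h2T]
      _ = 2 * (Fintype.card J * T) := by ring
  have hquot : (discMat g c₀ x).det ^ 2 / (p : Kb) ^ (Fintype.card J * (d + 1)) =
      (a * (discDFT E J d ζ).det) ^ 2 * ϖ ^ (2 * (S - Fintype.card J * T)) := by
    rw [hM, hdet, hpow]
    have : ϖ ^ (∑ j, ∑ r, m j r) = ϖ ^ (S - Fintype.card J * T) * ϖ ^ (Fintype.card J * T) := by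
      rw [← pow_add, Nat.sub_add_cancel hST]
    rw [this]
    have h0 : ϖ ^ (Fintype.card J * T) ≠ 0 := pow_ne_zero _ hϖ0
    rw [pow_mul' ϖ 2, pow_mul' ϖ 2]
    generalize ϖ ^ (Fintype.card J * T) = B at h0 ⊢
    generalize ϖ ^ (S - Fintype.card J * T) = A
    field_simp
  have haD : (a * (discDFT E J d ζ).det) ^ 2 ∈ P := pow_mem (P.mul_mem _ _ ha hD) 2
  refine ⟨?_, fun hunit j => ?_⟩
  · rw [hquot]
    exact P.mul_mem _ _ haD (pow_mem (disc_nonunit_mem hϖm) _)
  · -- equality
    have hSeq : S = Fintype.card J * T := by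
      by_contra hne'
      have hlt : Fintype.card J * T < S := lt_of_le_of_ne hST (Ne.symm hne')
      apply hunit
      rw [hquot]
      refine disc_mul_nonunit haD (disc_pow_nonunit ?_ hϖm)
      omega
    have hTeq : ∀ j, ∑ r, m j r = T := by
      have h1 : ∑ j : J, T = ∑ j, ∑ r, m j r := by
        rw [Finset.sum_const, Finset.card_univ, smul_eq_mul, ← hSeq]
      have h2 := (Finset.sum_eq_sum_iff_of_le (fun j _ => hTj j)).1 h1
      exact fun j => (h2 j (Finset.mem_univ j)).symm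
    obtain ⟨r₁, hr₁⟩ := (disc_sum_ge (m j) (hm1 j) (hinj j)).2 (hTeq j) hdpos
    obtain ⟨i, u, hu, hk⟩ := hmspec j r₁
    rw [hr₁, pow_one] at hk
    refine ⟨i, ?_⟩
    -- `x i j / ϖ` is a unit
    have h1 : IsPUnit P (y i j r₁ / ϖ) := by
      apply isPUnit_of_pow hd0
      rw [div_pow, hϖ, hk, mul_comm, mul_div_assoc, div_self hp0, mul_one]
      exact hu
    have h2 : ∀ r, r ≠ r₁ → y i j r / ϖ ∈ P.nonunits := by
      intro r hr
      have hm2 : 2 ≤ m j r := by
        have h3 : m j r ≠ 1 := by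
          intro h4
          apply hr
          apply hinj j
          rw [h4, hr₁]
        have := hm1 j r
        omega
      have h5 : y i j r / ϖ = (y i j r / ϖ ^ m j r) * ϖ ^ (m j r - 1) := by
        have : ϖ ^ m j r = ϖ ^ (m j r - 1) * ϖ := by
          rw [← pow_succ]
          congr 1
          omega
        rw [this]
        field_simp
      rw [h5]
      exact disc_mul_nonunit (hdiv i j r) (disc_pow_nonunit (by omega) hϖm)
    have h6 : x i j / ϖ = y i j r₁ / ϖ + ∑ r ∈ Finset.univ.erase r₁, y i j r / ϖ := by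
      rw [hxsum i j, Finset.sum_div, ← Finset.add_sum_erase Finset.univ _ (Finset.mem_univ r₁)]
    have h7 : IsPUnit P (x i j / ϖ) := by
      rw [h6]
      exact h1.add_nonunit (disc_sum_nonunit _ _
        (fun r hr => h2 r (Finset.ne_of_mem_erase hr)))
    have h8 : (x i j) ^ d / (p : Kb) = (x i j / ϖ) ^ d := by
      rw [div_pow, hϖ]
    rw [h8]
    exact h7.pow d

end Fermat.Agent.FFL
end MergeWrap_Lib_FFL_FB_Disc

section MergeWrap_S56_W4_C_D_Act -- from S56/W4/C/D/Act.lean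

set_option autoImplicit false

namespace Fermat.Agent.S56.SS

open Fermat.Agent.FFL

local notation "Kb" => AlgebraicClosure ℚ
local notation "GK" => (AlgebraicClosure ℚ ≃ₐ[ℚ] AlgebraicClosure ℚ)

variable {P : ValuationSubring Kb} {W : Type} [AddCommGroup W] {act : GK → W → W}

theorem iact_zero (hact : IsIAction P act) {σ : GK} (hσ : σ ∈ P.inertiaSubgroupIn ℚ) :
    act σ 0 = 0 := by
  have h := hact.1 σ hσ 0 0
  rw [add_zero] at h
  exact left_eq_add.1 h

theorem iact_neg (hact : IsIAction P act) {σ : GK} (hσ : σ ∈ P.inertiaSubgroupIn ℚ) (w : W) :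
    act σ (-w) = -act σ w := by
  have h := hact.1 σ hσ w (-w)
  rw [add_neg_cancel, iact_zero hact hσ] at h
  exact (neg_eq_of_add_eq_zero_right h.symm).symm

theorem iact_sub (hact : IsIAction P act) {σ : GK} (hσ : σ ∈ P.inertiaSubgroupIn ℚ) (w w' : W) :
    act σ (w - w') = act σ w - act σ w' := by
  rw [sub_eq_add_neg, hact.1 σ hσ, iact_neg hact hσ, sub_eq_add_neg]

theorem iact_nsmul (hact : IsIAction P act) {σ : GK} (hσ : σ ∈ P.inertiaSubgroupIn ℚ) (n : ℕ)
    (w : W) : act σ (n • w) = n • act σ w := by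
  induction n with
  | zero => rw [zero_smul, zero_smul, iact_zero hact hσ]
  | succ n ih => rw [succ_nsmul, succ_nsmul, hact.1 σ hσ, ih]

theorem iact_inv_cancel (hact : IsIAction P act) {σ : GK} (hσ : σ ∈ P.inertiaSubgroupIn ℚ)
    (w : W) : act σ⁻¹ (act σ w) = w := by
  rw [← hact.2.2 σ⁻¹ (inv_mem hσ) σ hσ, inv_mul_cancel, hact.2.1]

theorem iact_cancel_inv (hact : IsIAction P act) {σ : GK} (hσ : σ ∈ P.inertiaSubgroupIn ℚ)
    (w : W) : act σ (act σ⁻¹ w) = w := by
  rw [← hact.2.2 σ hσ σ⁻¹ (inv_mem hσ), mul_inv_cancel, hact.2.1]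

theorem iact_injective (hact : IsIAction P act) {σ : GK} (hσ : σ ∈ P.inertiaSubgroupIn ℚ) :
    Function.Injective (act σ) := fun w w' h => by
  rw [← iact_inv_cancel hact hσ w, h, iact_inv_cancel hact hσ]

theorem iact_pow (hact : IsIAction P act) {τ : GK} (hτ : τ ∈ P.inertiaSubgroupIn ℚ) (s : ℕ)
    (w : W) : act (τ ^ s) w = (act τ)^[s] w := by
  induction s generalizing w with
  | zero => rw [pow_zero, hact.2.1, Function.iterate_zero, id]
  | succ s ih =>
    rw [pow_succ, hact.2.2 _ (pow_mem hτ s) τ hτ, ih, Function.iterate_succ_apply]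

/-- The permutation of `W` given by an inertia element. -/
noncomputable def iactPerm (hact : IsIAction P act) {σ : GK} (hσ : σ ∈ P.inertiaSubgroupIn ℚ) :
    Equiv.Perm W where
  toFun := act σ
  invFun := act σ⁻¹
  left_inv := iact_inv_cancel hact hσ
  right_inv := iact_cancel_inv hact hσ

theorem iactPerm_pow (hact : IsIAction P act) {σ : GK} (hσ : σ ∈ P.inertiaSubgroupIn ℚ) (s : ℕ)
    (w : W) : (iactPerm hact hσ ^ s) w = (act σ)^[s] w := by
  rw [← Equiv.Perm.iterate_eq_pow]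
  rfl

omit [AddCommGroup W] in
/-- Iterates of `act τ₀` commute with the action of inertia. -/
theorem iact_iterate_comm (hcomm : IsCommAct P act) {σ τ : GK}
    (hσ : σ ∈ P.inertiaSubgroupIn ℚ) (hτ : τ ∈ P.inertiaSubgroupIn ℚ) (s : ℕ) (w : W) :
    (act τ)^[s] (act σ w) = act σ ((act τ)^[s] w) := by
  induction s generalizing w with
  | zero => rfl
  | succ s ih =>
    rw [Function.iterate_succ_apply, Function.iterate_succ_apply, hcomm τ hτ σ hσ, ih]

theorem iact_iterate_add (hact : IsIAction P act) {τ : GK} (hτ : τ ∈ P.inertiaSubgroupIn ℚ)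
    (s : ℕ) (w w' : W) : (act τ)^[s] (w + w') = (act τ)^[s] w + (act τ)^[s] w' := by
  rw [← iact_pow hact hτ, ← iact_pow hact hτ, ← iact_pow hact hτ]
  exact hact.1 _ (pow_mem hτ s) w w'

omit [AddCommGroup W] in
/-- A cyclic action is commutative. -/
theorem isCommAct_of_cyclic {τ₀ : GK} (h : IsCyclicAct P act τ₀) : IsCommAct P act := by
  intro σ hσ τ hτ w
  obtain ⟨n, hn⟩ := h.2 σ hσ
  obtain ⟨n', hn'⟩ := h.2 τ hτ
  rw [hn, hn', hn', hn, ← Function.iterate_add_apply, ← Function.iterate_add_apply, add_comm]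

end Fermat.Agent.S56.SS
end MergeWrap_S56_W4_C_D_Act

section MergeWrap_S56_W4_C_D_DiscW -- from S56/W4/C/D/DiscW.lean

set_option autoImplicit false

namespace Fermat.Agent.S56.SS

open Fermat.Agent.FFL

local notation "Kb" => AlgebraicClosure ℚ
local notation "GK" => (AlgebraicClosure ℚ ≃ₐ[ℚ] AlgebraicClosure ℚ)

variable {p : ℕ} {P : ValuationSubring Kb} {W : Type} [AddCommGroup W] {act : GK → W → W}

/-- The column operation matrix: subtract the first column from the others. -/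
noncomputable def colOp (J : Type) [DecidableEq J] : Matrix (Unit ⊕ J) (Unit ⊕ J) Kb :=
  Matrix.fromBlocks (1 : Matrix Unit Unit Kb) (Matrix.of fun _ _ => (-1 : Kb))
    (0 : Matrix J Unit Kb) (1 : Matrix J J Kb)

theorem colOp_det (J : Type) [Fintype J] [DecidableEq J] : (colOp J).det = 1 := by
  unfold colOp
  rw [Matrix.det_fromBlocks_zero₂₁, Matrix.det_one, Matrix.det_one, one_mul]

theorem mul_colOp_inl {J : Type} [Fintype J] [DecidableEq J]
    (A : Matrix (Unit ⊕ J) (Unit ⊕ J) Kb) (i : Unit ⊕ J) :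
    (A * colOp J) i (Sum.inl ()) = A i (Sum.inl ()) := by
  rw [Matrix.mul_apply, Fintype.sum_sum_type]
  simp only [colOp, Matrix.fromBlocks_apply₁₁, Matrix.fromBlocks_apply₂₁, Finset.univ_unique,
    Finset.sum_singleton, Matrix.one_apply_eq, mul_one, Matrix.zero_apply, mul_zero,
    Finset.sum_const_zero, add_zero]

theorem mul_colOp_inr {J : Type} [Fintype J] [DecidableEq J]
    (A : Matrix (Unit ⊕ J) (Unit ⊕ J) Kb) (i : Unit ⊕ J) (c : J) :
    (A * colOp J) i (Sum.inr c) = A i (Sum.inr c) - A i (Sum.inl ()) := by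
  rw [Matrix.mul_apply, Fintype.sum_sum_type]
  simp only [colOp, Matrix.fromBlocks_apply₁₂, Matrix.fromBlocks_apply₂₂, Finset.univ_unique,
    Finset.sum_singleton, Matrix.of_apply, mul_neg, mul_one, Matrix.one_apply, mul_ite, mul_zero,
    Finset.sum_ite_eq', Finset.mem_univ, if_true]
  have : A i (Sum.inl (default : Unit)) = A i (Sum.inl ()) := rfl
  rw [this]
  ring

/-- The set of fixed points of an iterate of `act τ` is an inertia-stable subgroup. -/
def fixSub (hact : IsIAction P act) {τ : GK} (hτ : τ ∈ P.inertiaSubgroupIn ℚ) (s : ℕ) :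
    AddSubgroup W where
  carrier := {w | (act τ)^[s] w = w}
  add_mem' := fun {a b} ha hb => by
    show (act τ)^[s] (a + b) = a + b
    rw [iact_iterate_add hact hτ, ha, hb]
  zero_mem' := by
    show (act τ)^[s] 0 = 0
    rw [← iact_pow hact hτ, iact_zero hact (pow_mem hτ s)]
  neg_mem' := fun {a} ha => by
    show (act τ)^[s] (-a) = -a
    rw [← iact_pow hact hτ, iact_neg hact (pow_mem hτ s), iact_pow hact hτ, ha]

theorem mem_fixSub (hact : IsIAction P act) {τ : GK} (hτ : τ ∈ P.inertiaSubgroupIn ℚ) (s : ℕ)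
    (w : W) : w ∈ fixSub hact hτ s ↔ (act τ)^[s] w = w := Iff.rfl

/-- A simple commutative action is free outside `0`: an iterate of `act τ` with a nonzero fixed
point is the identity. -/
theorem iterate_eq_of_fixed (hact : IsIAction P act) (hcomm : IsCommAct P act)
    (hsimple : IsSimpleAct P act) {τ : GK} (hτ : τ ∈ P.inertiaSubgroupIn ℚ) (s : ℕ) {w : W}
    (hw : w ≠ 0) (hfix : (act τ)^[s] w = w) (v : W) : (act τ)^[s] v = v := by
  have hstab : ∀ σ ∈ P.inertiaSubgroupIn ℚ, ∀ n ∈ fixSub hact hτ s, act σ n ∈ fixSub hact hτ s := by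
    intro σ hσ n hn
    rw [mem_fixSub] at hn ⊢
    rw [iact_iterate_comm hcomm hσ hτ, hn]
  rcases hsimple _ hstab with h | h
  · exfalso
    apply hw
    have : w ∈ fixSub hact hτ s := hfix
    rw [h] at this
    exact (AddSubgroup.mem_bot).1 this
  · have : v ∈ fixSub hact hτ s := by
      rw [h]
      exact AddSubgroup.mem_top v
    exact this

/-- **The discriminant estimate on `W`.** -/
theorem discW (hp : p.Prime) (hP : P.LiesOverPrime p) (hSchur : SchurProp P) (hOrb : OrbitProp)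
    [Fintype W] [DecidableEq W] (hact : IsIAction P act) (hcomm : IsCommAct P act)
    (hsimple : IsSimpleAct P act) (hpn : p ∣ Fintype.card W)
    (b : W → W → Kb) (hbP : ∀ i w, b i w ∈ P)
    (hbeq : ∀ σ ∈ P.inertiaSubgroupIn ℚ, ∀ i w, b i (act σ w) = σ (b i w))
    (hbconn : ∀ i w, b i w - b i 0 ∈ P.nonunits) :
    ∃ m d : ℕ, 0 < d ∧ Fintype.card W = 1 + m * d ∧
      (Matrix.of b).det ^ 2 / (p : Kb) ^ (m * (d + 1)) ∈ P ∧
      ((Matrix.of b).det ^ 2 / (p : Kb) ^ (m * (d + 1)) ∉ P.nonunits → m = 1 →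
        (∀ a a' : W, a ≠ 0 → a' ≠ 0 → ∃ σ ∈ P.inertiaSubgroupIn ℚ, act σ a = a') ∧
        ∃ i, ∀ a : W, a ≠ 0 → IsPUnit P ((b i a - b i 0) ^ d / (p : Kb))) := by
  classical
  obtain ⟨τ₀, hτ₀, hcyc⟩ := hSchur W act hact hcomm hsimple
  set γ : Equiv.Perm W := iactPerm hact hτ₀ with hγ
  set d : ℕ := orderOf γ with hd
  have hdpos : 0 < d := orderOf_pos γ
  have hγd : ∀ w, (act τ₀)^[d] w = w := by
    intro w
    rw [← iactPerm_pow hact hτ₀, pow_orderOf_eq_one]
    rfl
  have hfree : ∀ w, w ≠ 0 → ∀ s, 0 < s → s < d → (act τ₀)^[s] w ≠ w := by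
    intro w hw s hs hsd hfix
    have hall := iterate_eq_of_fixed hact hcomm hsimple hτ₀ s hw hfix
    have h1 : γ ^ s = 1 := by
      ext v
      rw [iactPerm_pow]
      exact hall v
    exact absurd (Nat.le_of_dvd hs (orderOf_dvd_of_pow_eq_one h1)) (not_le.2 hsd)
  obtain ⟨m, ε, hε0, hεs⟩ := hOrb W 0 (act τ₀) d hdpos (iact_zero hact hτ₀) hγd hfree
  have hcard : Fintype.card W = 1 + m * d := by
    rw [← Fintype.card_congr ε]
    simp
  have hpd : ¬ p ∣ d := by
    intro h
    have h1 : p ∣ m * d := Dvd.dvd.mul_left h m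
    rw [hcard] at hpn
    have h2 : p ∣ 1 := (Nat.dvd_add_left h1).1 hpn
    exact hp.one_lt.ne' (Nat.dvd_one.1 h2)
  have hit0 : ∀ t : ℕ, (act τ₀)^[t] (0 : W) = 0 := fun t => by
    rw [← iact_pow hact hτ₀, iact_zero hact (pow_mem hτ₀ t)]
  -- the data of `disc_main`
  let a₀ : Fin m → W := fun j => ε (Sum.inr (j, ⟨0, hdpos⟩))
  let c₀ : DIdx Unit (Fin m) d → Unit → Kb := fun i _ => b (ε i) 0
  let x : DIdx Unit (Fin m) d → Fin m → Kb := fun i j => b (ε i) (a₀ j) - b (ε i) 0
  have hpowx : ∀ i j (t : ℕ),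
      (τ₀ ^ t) (x i j) = b (ε i) ((act τ₀)^[t] (a₀ j)) - b (ε i) 0 := by
    intro i j t
    show (τ₀ ^ t) (b (ε i) (a₀ j) - b (ε i) 0) = _
    rw [map_sub, ← hbeq _ (pow_mem hτ₀ t), ← hbeq _ (pow_mem hτ₀ t), iact_pow hact hτ₀,
      iact_pow hact hτ₀, hit0]
  have hMeq : discMat τ₀ c₀ x = ((Matrix.of b).submatrix ε ε) * colOp (Fin m × Fin d) := by
    ext i c
    rcases c with u | ⟨j, s⟩
    · rw [mul_colOp_inl]
      show b (ε i) 0 = b (ε i) (ε (Sum.inl ()))
      rw [hε0]
    · rw [mul_colOp_inr, discMat_inr, hpowx]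
      show _ = b (ε i) (ε (Sum.inr (j, s))) - b (ε i) (ε (Sum.inl ()))
      rw [hεs j s, hε0]
  have hdet : (discMat τ₀ c₀ x).det = (Matrix.of b).det := by
    rw [hMeq, Matrix.det_mul, colOp_det, mul_one, Matrix.det_submatrix_equiv_self]
  have hI : ∀ σ ∈ P.inertiaSubgroupIn ℚ, ∃ s : ℕ, ∀ i j (t : ℕ),
      σ ((τ₀ ^ t) (x i j)) = (τ₀ ^ (s + t)) (x i j) := by
    intro σ hσ
    obtain ⟨n, hn⟩ := hcyc σ hσ
    refine ⟨n, fun i j t => ?_⟩
    rw [hpowx, hpowx, map_sub, ← hbeq σ hσ, ← hbeq σ hσ, hn, hn, hit0,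
      ← Function.iterate_add_apply]
  have hgd : ∀ i j, (τ₀ ^ d) (x i j) = x i j := by
    intro i j
    rw [hpowx, hγd]
  obtain ⟨h1, h2⟩ := disc_main hp hP hdpos.ne' hpd hτ₀ c₀ x (fun i _ => hbP _ _)
    (fun i j => hbconn _ _) hI hgd
  rw [hdet, Fintype.card_fin] at h1 h2
  refine ⟨m, d, hdpos, hcard, h1, fun hunit hm1 => ?_⟩
  have h3 := h2 hunit
  subst hm1
  have hrep : ∀ w : W, w ≠ 0 → ∃ s : ℕ, w = act (τ₀ ^ s) (a₀ 0) := by
    intro w hw
    obtain ⟨c, rfl⟩ := ε.surjective w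
    rcases c with u | ⟨j, s⟩
    · exact absurd hε0 hw
    · refine ⟨s, ?_⟩
      rw [iact_pow hact hτ₀, hεs j s]
      have hj : j = 0 := Subsingleton.elim _ _
      rw [hj]
  refine ⟨fun a a' ha ha' => ?_, ?_⟩
  · obtain ⟨s, rfl⟩ := hrep a ha
    obtain ⟨s', rfl⟩ := hrep a' ha'
    refine ⟨τ₀ ^ s' * (τ₀ ^ s)⁻¹, mul_mem (pow_mem hτ₀ s') (inv_mem (pow_mem hτ₀ s)), ?_⟩
    rw [hact.2.2 _ (pow_mem hτ₀ s') _ (inv_mem (pow_mem hτ₀ s)),
      iact_inv_cancel hact (pow_mem hτ₀ s)]
  · obtain ⟨i, hi⟩ := h3 0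
    refine ⟨ε i, fun a ha => ?_⟩
    obtain ⟨s, rfl⟩ := hrep a ha
    have h4 : b (ε i) (act (τ₀ ^ s) (a₀ 0)) - b (ε i) 0 = (τ₀ ^ s) (x i 0) := by
      rw [hpowx, iact_pow hact hτ₀]
    rw [h4]
    have h5 : ((τ₀ ^ s) (x i 0)) ^ d / (p : Kb) = (τ₀ ^ s) ((x i 0) ^ d / (p : Kb)) := by
      rw [map_div₀, map_pow, map_natCast]
    rw [h5]
    exact disc_inertia_isPUnit (pow_mem hτ₀ s) hi

end Fermat.Agent.S56.SS
end MergeWrap_S56_W4_C_D_DiscW

section MergeWrap_S56_W4_C_D_Core -- from S56/W4/C/D/Core.lean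

set_option autoImplicit false

namespace Fermat.Agent.S56.SS

open Fermat.Agent.FFL

local notation "Kb" => AlgebraicClosure ℚ
local notation "GK" => (AlgebraicClosure ℚ ≃ₐ[ℚ] AlgebraicClosure ℚ)

variable {p : ℕ} {P : ValuationSubring Kb} {W : Type} [AddCommGroup W] {act : GK → W → W}

/-- For a simple commutative nontrivial action, the augmentation subgroup is everything. -/
theorem augI_eq_top (hact : IsIAction P act) (hcomm : IsCommAct P act)
    (hsimple : IsSimpleAct P act)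
    (hnt : ∃ σ ∈ P.inertiaSubgroupIn ℚ, ∃ w, act σ w ≠ w) (w : W) : w ∈ augI P act := by
  have hstab : ∀ τ ∈ P.inertiaSubgroupIn ℚ, ∀ n ∈ augI P act, act τ n ∈ augI P act := by
    intro τ hτ n hn
    unfold augI augOn at hn ⊢
    induction hn using AddSubgroup.closure_induction with
    | mem x hx =>
      obtain ⟨σ, hσ, v, -, rfl⟩ := hx
      apply AddSubgroup.subset_closure
      refine ⟨σ, hσ, act τ v, Set.mem_univ _, ?_⟩
      rw [iact_sub hact hτ, hcomm τ hτ σ hσ]
    | zero =>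
      rw [iact_zero hact hτ]
      exact AddSubgroup.zero_mem _
    | add x y _ _ hx hy =>
      rw [hact.1 τ hτ]
      exact AddSubgroup.add_mem _ hx hy
    | neg x _ hx =>
      rw [iact_neg hact hτ]
      exact AddSubgroup.neg_mem _ hx
  rcases hsimple _ hstab with h | h
  · exfalso
    obtain ⟨σ, hσ, v, hv⟩ := hnt
    have h1 : act σ v - v ∈ augI P act :=
      AddSubgroup.subset_closure ⟨σ, hσ, v, Set.mem_univ _, rfl⟩
    rw [h, AddSubgroup.mem_bot, sub_eq_zero] at h1
    exact hv h1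
  · rw [h]
    exact AddSubgroup.mem_top w

/-- **Core of block D.** -/
theorem dcore (hp : p.Prime) (hP : P.LiesOverPrime p)
    (hBasis : BasisProp p P) (hChar : CharProp p P) (hPair : PairProp) (hDet : DualDetProp)
    (hAct : DualActProp P) (hFam : DualFamProp p P) (hRed : RedProp P) (hSchur : SchurProp P)
    (hOrb : OrbitProp) [Fintype W] [DecidableEq W] (O : IOrd P W act)
    (hact : IsIAction P act) (hcomm : IsCommAct P act) (hsimple : IsSimpleAct P act)
    (hnt : ∃ σ ∈ P.inertiaSubgroupIn ℚ, ∃ w, act σ w ≠ w)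
    (hnt' : ∃ σ ∈ P.inertiaSubgroupIn ℚ, ∃ χ : W → Kb, IsCharFun χ ∧
      ∃ w, χ (act σ w) ≠ σ (χ w))
    (hpn : p ∣ Fintype.card W) :
    ∃ (b : W → W → Kb) (m m' d d' : ℕ) (α α' : Kb), IsOrdBasis O b ∧ 0 < d ∧ 0 < d' ∧
      Fintype.card W = 1 + m * d ∧ Fintype.card W = 1 + m' * d' ∧ α ∈ P ∧ α' ∈ P ∧
      (α * α') ^ 2 * (p : Kb) ^ (2 * (m * (d + 1) + m' * (d' + 1))) =
        (Fintype.card W : Kb) ^ (2 * Fintype.card W) ∧
      (α ∉ P.nonunits → m = 1 →
        (∀ a a' : W, a ≠ 0 → a' ≠ 0 → ∃ σ ∈ P.inertiaSubgroupIn ℚ, act σ a = a') ∧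
        ∃ i, ∀ a : W, a ≠ 0 → IsPUnit P ((b i a - b i 0) ^ d / (p : Kb))) := by
  classical
  have hp0 : (p : Kb) ≠ 0 := Nat.cast_ne_zero.2 hp.ne_zero
  have : Finite W := Finite.of_fintype W
  -- the order side
  obtain ⟨b, hb⟩ := hBasis hp hP W act O hact
  have haug := augI_eq_top hact hcomm hsimple hnt
  have hbconn : ∀ i w, b i w - b i 0 ∈ P.nonunits := fun i w =>
    hRed W act O hact w (haug w) (b i) (hb.1 i)
  obtain ⟨m, d, hd, hcard, h1, h2⟩ := discW hp hP hSchur hOrb hact hcomm hsimple hpn b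
    (fun i w => O.int _ (hb.1 i) w) (fun σ hσ i w => O.equiv _ (hb.1 i) σ hσ w) hbconn
  -- the dual side
  obtain ⟨X, hX⟩ := hPair W
  obtain ⟨act', hact', hdual, hcomm', hsimple'⟩ := hAct W act X hact hX
  have hcard' : Fintype.card W = Module.finrank Kb (W → Kb) := by
    rw [Module.finrank_fintype_fun_eq_card]
  let B : Module.Basis W Kb (W → Kb) := basisOfLinearIndependentOfCardEqFinrank hb.2.1 hcard'
  have hB : ∀ i, B i = b i := fun i => by
    simp only [B, coe_basisOfLinearIndependentOfCardEqFinrank]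
  let β : W → W → Kb := fun i a => B.repr (X a) i
  have hXβ : ∀ a, X a = ∑ i, β i a • b i := by
    intro a
    have := (B.sum_repr (X a)).symm
    simp only [hB] at this
    exact this
  have hXβ' : ∀ a w, X a w = ∑ i, β i a * b i w := by
    intro a w
    have := congrFun (hXβ a) w
    rw [this, Finset.sum_apply]
    rfl
  have hβP : ∀ i a, β i a ∈ P := fun i a =>
    hChar hp hP W act O b hb (X a) (hX.1 a) (fun i => β i a) (hXβ a) i
  obtain ⟨hβeq, hβconn⟩ := hFam hp hP W act act' O b X β hact hact' hb hX hdual hXβ' hβP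
  have hnt'' : ∃ σ ∈ P.inertiaSubgroupIn ℚ, ∃ a, act' σ a ≠ a := by
    obtain ⟨σ, hσ, χ, hχ, w, hw⟩ := hnt'
    obtain ⟨a, rfl⟩ := hX.2.2.2.2 χ hχ
    refine ⟨σ, hσ, a, fun h => hw ?_⟩
    rw [← hdual σ hσ a w, h]
  have haug' := augI_eq_top hact' (hcomm' hcomm) (hsimple' hsimple) hnt''
  obtain ⟨m', d', hd', hcard2, h1', -⟩ := discW hp hP hSchur hOrb hact' (hcomm' hcomm)
    (hsimple' hsimple) hpn β hβP (fun σ hσ i a => hβeq σ hσ i a)
    (fun i a => hβconn a (haug' a) i)
  -- the determinant relation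
  have hmat : Matrix.of X = (Matrix.of β).transpose * Matrix.of b := by
    ext a w
    rw [Matrix.mul_apply]
    exact hXβ' a w
  have hdet : (Matrix.of X).det = (Matrix.of β).det * (Matrix.of b).det := by
    rw [hmat, Matrix.det_mul, Matrix.det_transpose]
  have hdet4 := hDet W X hX
  refine ⟨b, m, m', d, d', _, _, hb, hd, hd', hcard, hcard2, h1, h1', ?_, h2⟩
  rw [← hdet4, hdet]
  have e1 : (p : Kb) ^ (m * (d + 1)) ≠ 0 := pow_ne_zero _ hp0
  have e2 : (p : Kb) ^ (m' * (d' + 1)) ≠ 0 := pow_ne_zero _ hp0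
  have hpow : (p : Kb) ^ (2 * (m * (d + 1) + m' * (d' + 1))) =
      ((p : Kb) ^ (m * (d + 1)) * (p : Kb) ^ (m' * (d' + 1))) ^ 2 := by
    rw [← pow_add, ← pow_mul, mul_comm]
  rw [hpow]
  generalize (p : Kb) ^ (m * (d + 1)) = u at e1 ⊢
  generalize (p : Kb) ^ (m' * (d' + 1)) = u' at e2 ⊢
  field_simp

end Fermat.Agent.S56.SS
end MergeWrap_S56_W4_C_D_Core

section MergeWrap_S56_W4_C_D_PairAux -- from S56/W4/C/D/PairAux.lean

set_option autoImplicit false

namespace Fermat.Agent.S56.SS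

open Fermat.Agent.FFL

local notation "Kb" => AlgebraicClosure ℚ
local notation "GK" => (AlgebraicClosure ℚ ≃ₐ[ℚ] AlgebraicClosure ℚ)

section CharFun

variable {W : Type} [AddCommGroup W]

theorem IsCharFun.map_zero {χ : W → Kb} (h : IsCharFun χ) : χ 0 = 1 := h.1

theorem IsCharFun.map_add {χ : W → Kb} (h : IsCharFun χ) (w w' : W) :
    χ (w + w') = χ w * χ w' := h.2 w w'

theorem IsCharFun.mul_neg {χ : W → Kb} (h : IsCharFun χ) (w : W) : χ w * χ (-w) = 1 := by
  rw [← h.2, add_neg_cancel, h.1]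

theorem IsCharFun.ne_zero {χ : W → Kb} (h : IsCharFun χ) (w : W) : χ w ≠ 0 := by
  intro h0
  have := h.mul_neg w
  rw [h0, zero_mul] at this
  exact zero_ne_one this

theorem IsCharFun.map_neg {χ : W → Kb} (h : IsCharFun χ) (w : W) : χ (-w) = (χ w)⁻¹ :=
  eq_inv_of_mul_eq_one_right (h.mul_neg w)

theorem IsCharFun.map_sub {χ : W → Kb} (h : IsCharFun χ) (w w' : W) :
    χ (w - w') = χ w / χ w' := by
  rw [sub_eq_add_neg, h.2, h.map_neg, div_eq_mul_inv]

theorem IsCharFun.map_nsmul {χ : W → Kb} (h : IsCharFun χ) (k : ℕ) (w : W) :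
    χ (k • w) = χ w ^ k := by
  induction k with
  | zero => simp [h.1]
  | succ k ih => rw [succ_nsmul, h.2, ih, pow_succ]

theorem IsCharFun.pow_card {χ : W → Kb} (h : IsCharFun χ) [Finite W] (w : W) :
    χ w ^ Nat.card W = 1 := by
  rw [← h.map_nsmul, card_nsmul_eq_zero', h.1]

theorem IsCharFun.one : IsCharFun (fun _ : W => (1 : Kb)) := ⟨rfl, fun _ _ => by simp⟩

theorem IsCharFun.mul {χ ψ : W → Kb} (h : IsCharFun χ) (h' : IsCharFun ψ) :
    IsCharFun (fun w => χ w * ψ w) :=
  ⟨by simp [h.1, h'.1], fun w w' => by simp only [h.2, h'.2]; ring⟩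

theorem IsCharFun.inv {χ : W → Kb} (h : IsCharFun χ) : IsCharFun (fun w => (χ w)⁻¹) :=
  ⟨by simp [h.1], fun w w' => by simp only [h.2, mul_inv]⟩

/-- A character composed with an additive map is a character. -/
theorem IsCharFun.comp {W' : Type} [AddCommGroup W'] {χ : W → Kb} (h : IsCharFun χ)
    (φ : W' → W) (h0 : φ 0 = 0) (hadd : ∀ w w', φ (w + w') = φ w + φ w') :
    IsCharFun (fun w => χ (φ w)) :=
  ⟨by simp [h0, h.1], fun w w' => by simp only [hadd, h.2]⟩

/-- A field automorphism applied to a character is a character. -/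
theorem IsCharFun.gal {χ : W → Kb} (h : IsCharFun χ) (σ : GK) : IsCharFun (fun w => σ (χ w)) :=
  ⟨by simp [h.1], fun w w' => by simp only [h.2, map_mul]⟩

/-- The monoid homomorphism `Multiplicative W →* ℚ̄ˣ` of a character. -/
noncomputable def IsCharFun.toHom {χ : W → Kb} (h : IsCharFun χ) : Multiplicative W →* Kbˣ where
  toFun w := Units.mk0 (χ w.toAdd) (h.ne_zero _)
  map_one' := by
    apply Units.ext
    simp [h.1]
  map_mul' a b := by
    apply Units.ext
    simp [h.2]

@[simp] theorem IsCharFun.toHom_apply {χ : W → Kb} (h : IsCharFun χ) (w : Multiplicative W) :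
    ((h.toHom w : Kbˣ) : Kb) = χ w.toAdd := rfl

/-- The character of a monoid homomorphism `Multiplicative W →* ℚ̄ˣ`. -/
theorem isCharFun_of_hom (φ : Multiplicative W →* Kbˣ) :
    IsCharFun (fun w : W => ((φ (Multiplicative.ofAdd w) : Kbˣ) : Kb)) :=
  ⟨by simp, fun w w' => by simp [ofAdd_add]⟩

end CharFun

section Pairing

variable {W : Type} [AddCommGroup W] {X : W → W → Kb}

theorem IsPairing.char (h : IsPairing X) (a : W) : IsCharFun (X a) := h.1 a

theorem IsPairing.add_left (h : IsPairing X) (a a' w : W) : X (a + a') w = X a w * X a' w :=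
  h.2.1 a a' w

theorem IsPairing.add_right (h : IsPairing X) (a w w' : W) : X a (w + w') = X a w * X a w' :=
  (h.1 a).2 w w'

theorem IsPairing.zero_right (h : IsPairing X) (a : W) : X a 0 = 1 := (h.1 a).1

theorem IsPairing.ne_zero (h : IsPairing X) (a w : W) : X a w ≠ 0 := (h.1 a).ne_zero w

theorem IsPairing.zero_left (h : IsPairing X) (w : W) : X 0 w = 1 := by
  have h1 := h.add_left 0 0 w
  rw [add_zero] at h1
  have h2 : X 0 w * 1 = X 0 w * X 0 w := by rw [mul_one]; exact h1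
  exact (mul_left_cancel₀ (h.ne_zero 0 w) h2).symm

/-- The pairing is a character in the first variable too. -/
theorem IsPairing.char_left (h : IsPairing X) (w : W) : IsCharFun (fun a => X a w) :=
  ⟨h.zero_left w, fun a a' => h.add_left a a' w⟩

theorem IsPairing.neg_left (h : IsPairing X) (a w : W) : X (-a) w = (X a w)⁻¹ :=
  (h.char_left w).map_neg a

theorem IsPairing.neg_right (h : IsPairing X) (a w : W) : X a (-w) = (X a w)⁻¹ :=
  (h.char a).map_neg w

theorem IsPairing.sub_left (h : IsPairing X) (a a' w : W) : X (a - a') w = X a w / X a' w :=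
  (h.char_left w).map_sub a a'

theorem IsPairing.eq_zero_left (h : IsPairing X) {a : W} (ha : ∀ w, X a w = 1) : a = 0 :=
  h.2.2.1 a ha

theorem IsPairing.eq_zero_right (h : IsPairing X) {w : W} (hw : ∀ a, X a w = 1) : w = 0 :=
  h.2.2.2.1 w hw

theorem IsPairing.surj (h : IsPairing X) {χ : W → Kb} (hχ : IsCharFun χ) : ∃ a, χ = X a :=
  h.2.2.2.2 χ hχ

theorem IsPairing.injective (h : IsPairing X) : Function.Injective X := by
  intro a a' haa
  have : a - a' = 0 := by
    refine h.eq_zero_left (fun w => ?_)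
    rw [h.sub_left, haa, div_self (h.ne_zero a' w)]
  exact sub_eq_zero.1 this

theorem IsPairing.injective_right (h : IsPairing X) {w w' : W} (hw : ∀ a, X a w = X a w') :
    w = w' := by
  have : w - w' = 0 := by
    refine h.eq_zero_right (fun a => ?_)
    rw [(h.char a).map_sub, hw, div_self (h.ne_zero a w')]
  exact sub_eq_zero.1 this

theorem IsPairing.pow_card (h : IsPairing X) [Finite W] (a w : W) : X a w ^ Nat.card W = 1 :=
  (h.char a).pow_card w

/-- The transposed pairing. -/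
theorem IsPairing.exists_ne_one_right (h : IsPairing X) {w : W} (hw : w ≠ 0) :
    ∃ a, X a w ≠ 1 := by
  by_contra hcon
  exact hw (h.eq_zero_right (fun a => by_contra (fun ha => hcon ⟨a, ha⟩)))

theorem IsPairing.exists_ne_one_left (h : IsPairing X) {a : W} (ha : a ≠ 0) :
    ∃ w, X a w ≠ 1 := by
  by_contra hcon
  exact ha (h.eq_zero_left (fun w => by_contra (fun hw => hcon ⟨w, hw⟩)))

/-- Orthogonality: the sum of a nontrivial character is `0`. -/
theorem IsCharFun.sum_eq_zero [Fintype W] {χ : W → Kb} (h : IsCharFun χ) {w₀ : W}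
    (hw₀ : χ w₀ ≠ 1) : ∑ w, χ w = 0 := by
  have h1 : χ w₀ * ∑ w, χ w = ∑ w, χ w := by
    rw [Finset.mul_sum]
    have : ∑ w, χ w₀ * χ w = ∑ w, χ (w₀ + w) :=
      Finset.sum_congr rfl (fun w _ => (h.2 w₀ w).symm)
    rw [this]
    exact Fintype.sum_equiv (Equiv.addLeft w₀) _ _ (fun w => rfl)
  have h2 : (χ w₀ - 1) * ∑ w, χ w = 0 := by rw [sub_mul, h1, one_mul, sub_self]
  rcases mul_eq_zero.1 h2 with h3 | h3
  · exact absurd (sub_eq_zero.1 h3) hw₀
  · exact h3

theorem IsPairing.sum_right [Fintype W] [DecidableEq W] (h : IsPairing X) (a : W) :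
    ∑ w, X a w = if a = 0 then (Fintype.card W : Kb) else 0 := by
  split_ifs with ha
  · subst ha
    simp [h.zero_left]
  · obtain ⟨w₀, hw₀⟩ := h.exists_ne_one_left ha
    exact (h.char a).sum_eq_zero hw₀

theorem IsPairing.sum_left [Fintype W] [DecidableEq W] (h : IsPairing X) (w : W) :
    ∑ a, X a w = if w = 0 then (Fintype.card W : Kb) else 0 := by
  split_ifs with hw
  · subst hw
    simp [h.zero_right]
  · obtain ⟨a₀, ha₀⟩ := h.exists_ne_one_right hw
    exact (h.char_left w).sum_eq_zero ha₀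

end Pairing

end Fermat.Agent.S56.SS
end MergeWrap_S56_W4_C_D_PairAux

section MergeWrap_S56_W4_C_D_AsmAux -- from S56/W4/C/D/AsmAux.lean

set_option autoImplicit false
set_option linter.style.haveILetI false

namespace Fermat.Agent.S56.SS

open Fermat.Agent.FFL

local notation "Kb" => AlgebraicClosure ℚ
local notation "GK" => (AlgebraicClosure ℚ ≃ₐ[ℚ] AlgebraicClosure ℚ)

variable {p : ℕ} {P : ValuationSubring Kb} {W : Type} [AddCommGroup W] {act : GK → W → W}

/-! ### Arithmetic -/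

/-- `c * p ^ k = p ^ l` with `c ∈ P` forces `k ≤ l`. -/
theorem dasm_exp_le (hp : p.Prime) (hP : P.LiesOverPrime p) {c : Kb} (hc : c ∈ P) {k l : ℕ}
    (h : c * (p : Kb) ^ k = (p : Kb) ^ l) : k ≤ l := by
  by_contra hlt
  rw [not_le] at hlt
  have hp0 : (p : Kb) ≠ 0 := Nat.cast_ne_zero.2 hp.ne_zero
  obtain ⟨j, rfl⟩ : ∃ j, k = l + 1 + j := ⟨k - (l + 1), by omega⟩
  have h1 : c * (p : Kb) ^ j * (p : Kb) = 1 := by
    have h2 : c * (p : Kb) ^ (l + 1 + j) = (c * (p : Kb) ^ j * (p : Kb)) * (p : Kb) ^ l := by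
      rw [pow_add, pow_add, pow_one]
      ring
    rw [h2] at h
    have h3 : (c * (p : Kb) ^ j * (p : Kb)) * (p : Kb) ^ l = 1 * (p : Kb) ^ l := by
      rw [h, one_mul]
    exact mul_right_cancel₀ (pow_ne_zero l hp0) h3
  have h4 : (1 : Kb) ∈ P.nonunits := by
    rw [← h1]
    exact disc_mul_nonunit (P.mul_mem _ _ hc (pow_mem (natCast_mem P p) j)) hP
  rw [P.mem_nonunits_iff, map_one] at h4
  exact lt_irrefl _ h4

/-- `(α α') ^ 2 * p ^ k = p ^ k` with `α, α' ∈ P` forces `α` to be a unit. -/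
theorem dasm_unit (hp : p.Prime) {α α' : Kb} (hα : α ∈ P) (hα' : α' ∈ P) {k : ℕ}
    (h : (α * α') ^ 2 * (p : Kb) ^ k = (p : Kb) ^ k) : α ∉ P.nonunits := by
  have hp0 : (p : Kb) ≠ 0 := Nat.cast_ne_zero.2 hp.ne_zero
  have h1 : (α * α') ^ 2 = 1 := by
    have h3 : (α * α') ^ 2 * (p : Kb) ^ k = 1 * (p : Kb) ^ k := by rw [h, one_mul]
    exact mul_right_cancel₀ (pow_ne_zero k hp0) h3
  intro hnon
  have h2 : (1 : Kb) ∈ P.nonunits := by
    rw [← h1]
    have : (α * α') ^ 2 = (α' * (α * α')) * α := by ring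
    rw [this]
    exact disc_mul_nonunit (P.mul_mem _ _ hα' (P.mul_mem _ _ hα hα')) hnon
  rw [P.mem_nonunits_iff, map_one] at h2
  exact lt_irrefl _ h2

/-! ### Scalar actions -/

/-- If the dual action of `σ` is trivial, `σ` acts on `W` as a scalar. -/
theorem dasm_scalar [Finite W] {X : W → W → Kb} (hX : IsPairing X) (σ : GK)
    (h : ∀ a w, X a (act σ w) = σ (X a w)) : ∃ k : ℕ, ∀ w, act σ w = k • w := by
  have hn : Nat.card W ≠ 0 := Nat.card_ne_zero.2 ⟨⟨0⟩, inferInstance⟩
  haveI : NeZero (Nat.card W) := ⟨hn⟩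
  refine ⟨((Fermat.Agent.Cyclo.modChar (Nat.card W) σ : (ZMod (Nat.card W))ˣ) :
    ZMod (Nat.card W)).val, fun w => ?_⟩
  apply hX.injective_right
  intro a
  rw [h a w, Fermat.Agent.Cyclo.modChar_spec (Nat.card W) σ (hX.pow_card a w),
    (hX.char a).map_nsmul]

/-- A scalar action preserves all subgroups. -/
theorem dasm_scalar_stable (N : AddSubgroup W) {σ : GK} {k : ℕ} (h : ∀ w, act σ w = k • w) :
    ∀ n ∈ N, act σ n ∈ N := fun n hn => by
  rw [h]
  exact N.nsmul_mem hn k

/-! ### Groups of order `p²` and `p` -/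

/-- A group of order `p²` has a subgroup which is neither trivial nor everything. -/
theorem dasm_exists_proper [Finite W] (hp : p.Prime) (hcard : Nat.card W = p ^ 2) :
    ∃ N : AddSubgroup W, N ≠ ⊥ ∧ N ≠ ⊤ := by
  haveI : Fact p.Prime := ⟨hp⟩
  have hdvd : p ∣ Nat.card W := by
    rw [hcard]
    exact dvd_pow_self p two_ne_zero
  obtain ⟨x, hx⟩ := exists_prime_addOrderOf_dvd_card' p hdvd
  refine ⟨AddSubgroup.zmultiples x, ?_, ?_⟩
  · intro h
    have h1 : x ∈ AddSubgroup.zmultiples x := AddSubgroup.mem_zmultiples x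
    rw [h, AddSubgroup.mem_bot] at h1
    rw [h1, addOrderOf_zero] at hx
    exact hp.one_lt.ne' hx.symm
  · intro h
    have h1 : Nat.card (AddSubgroup.zmultiples x) = p := by
      rw [Nat.card_zmultiples, hx]
    rw [h, AddSubgroup.card_top, hcard] at h1
    have h2 : p ^ 2 = p ^ 1 := by rw [h1, pow_one]
    have := Nat.pow_right_injective hp.two_le h2
    omega

/-- In a group of prime order every subgroup is trivial. -/
theorem dasm_simple_of_prime [Finite W] (hp : p.Prime) (hcard : Nat.card W = p)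
    (N : AddSubgroup W) : N = ⊥ ∨ N = ⊤ := by
  haveI : Fact (Nat.card W).Prime := ⟨hcard ▸ hp⟩
  exact AddSubgroup.eq_bot_or_eq_top_of_prime_card N

/-- Additive endomorphisms of a group of prime order commute. -/
theorem dasm_comm_of_prime [Finite W] (hp : p.Prime) (hcard : Nat.card W = p)
    (f g : W → W) (hf : ∀ w w', f (w + w') = f w + f w')
    (hg : ∀ w w', g (w + w') = g w + g w') (w : W) : f (g w) = g (f w) := by
  haveI : Fact p.Prime := ⟨hp⟩
  have hf0 : f 0 = 0 := by
    have := hf 0 0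
    rw [add_zero] at this
    exact left_eq_add.1 this
  have hg0 : g 0 = 0 := by
    have := hg 0 0
    rw [add_zero] at this
    exact left_eq_add.1 this
  have hfn : ∀ (n : ℕ) (v : W), f (n • v) = n • f v := by
    intro n v
    induction n with
    | zero => rw [zero_smul, zero_smul, hf0]
    | succ n ih => rw [succ_nsmul, succ_nsmul, hf, ih]
  have hgn : ∀ (n : ℕ) (v : W), g (n • v) = n • g v := by
    intro n v
    induction n with
    | zero => rw [zero_smul, zero_smul, hg0]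
    | succ n ih => rw [succ_nsmul, succ_nsmul, hg, ih]
  haveI : IsAddCyclic W := isAddCyclic_of_prime_card hcard
  obtain ⟨g₀, hg₀⟩ := IsAddCyclic.exists_generator (α := W)
  have hmul : ∀ v : W, ∃ n : ℕ, v = n • g₀ := by
    intro v
    have hv : v ∈ AddSubgroup.zmultiples g₀ := hg₀ v
    rw [← mem_multiples_iff_mem_zmultiples, AddSubmonoid.mem_multiples_iff] at hv
    obtain ⟨n, hn⟩ := hv
    exact ⟨n, hn.symm⟩
  obtain ⟨a, ha⟩ := hmul (f g₀)
  obtain ⟨b, hb⟩ := hmul (g g₀)
  obtain ⟨n, rfl⟩ := hmul w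
  rw [hgn, hfn, hfn, hgn, hb, ha, hfn, hgn, ha, hb, smul_smul, smul_smul, smul_smul, smul_smul]
  congr 1
  ring

end Fermat.Agent.S56.SS
end MergeWrap_S56_W4_C_D_AsmAux

section MergeWrap_S56_W4_C_D_Asm -- from S56/W4/C/D/Asm.lean

set_option autoImplicit false
set_option linter.style.haveILetI false

namespace Fermat.Agent.S56.SS

open Fermat.Agent.FFL

local notation "Kb" => AlgebraicClosure ℚ
local notation "GK" => (AlgebraicClosure ℚ ≃ₐ[ℚ] AlgebraicClosure ℚ)

variable {p : ℕ} {P : ValuationSubring Kb}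

/-- The leaves of block D. -/
structure DLeaves (p : ℕ) (P : ValuationSubring Kb) : Prop where
  basis : BasisProp p P
  char : CharProp p P
  pair : PairProp
  det : DualDetProp
  dact : DualActProp P
  fam : DualFamProp p P
  red : RedProp P
  schur : SchurProp P
  orbit : OrbitProp

/-- **OrderP** from the leaves. -/
theorem orderPProp_of_leaves (L : DLeaves p P) : OrderPProp p P := by
  classical
  intro hp _ hP W _ _ act O hact hcard
  by_contra hcon
  rw [not_or] at hcon
  obtain ⟨h1, h2⟩ := hcon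
  haveI : Fintype W := Fintype.ofFinite W
  have hcardF : Fintype.card W = p := by rw [← Nat.card_eq_fintype_card, hcard]
  have hnt : ∃ σ ∈ P.inertiaSubgroupIn ℚ, ∃ w, act σ w ≠ w := by
    by_contra h
    exact h1 fun σ hσ w => by_contra fun hw => h ⟨σ, hσ, w, hw⟩
  have hsimple : IsSimpleAct P act := fun N _ => dasm_simple_of_prime hp hcard N
  have hcomm : IsCommAct P act := fun σ hσ τ hτ w =>
    dasm_comm_of_prime hp hcard (act σ) (act τ) (hact.1 σ hσ) (hact.1 τ hτ) w
  obtain ⟨X, hX⟩ := L.pair W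
  have hnt' : ∃ σ ∈ P.inertiaSubgroupIn ℚ, ∃ χ : W → Kb, IsCharFun χ ∧
      ∃ w, χ (act σ w) ≠ σ (χ w) := by
    by_contra h
    apply h2
    intro σ hσ a ha w
    apply hX.injective_right
    intro a'
    have h3 : X a' (act σ w) = σ (X a' w) := by
      by_contra h4
      exact h ⟨σ, hσ, X a', hX.1 a', w, h4⟩
    have h5 : (X a' w) ^ p = 1 := by
      have := hX.pow_card a' w
      rwa [hcard] at this
    rw [h3, ha _ h5, (hX.char a').map_nsmul]
  obtain ⟨b, m, m', d, d', α, α', -, hd, hd', hc, hc', hα, hα', hrel, -⟩ :=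
    dcore hp hP L.basis L.char L.pair L.det L.dact L.fam L.red L.schur L.orbit O hact hcomm
      hsimple hnt hnt' (by rw [hcardF])
  rw [hcardF] at hrel hc hc'
  have hle := dasm_exp_le hp hP (pow_mem (P.mul_mem _ _ hα hα') 2)
    (l := 2 * p) (by rw [hrel])
  have hm : 1 ≤ m := by
    rcases Nat.eq_zero_or_pos m with h | h
    · rw [h, zero_mul] at hc
      exact absurd hc hp.one_lt.ne'
    · exact h
  have hm' : 1 ≤ m' := by
    rcases Nat.eq_zero_or_pos m' with h | h
    · rw [h, zero_mul] at hc'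
      exact absurd hc' hp.one_lt.ne'
    · exact h
  have e1 : m * (d + 1) = m * d + m := by ring
  have e2 : m' * (d' + 1) = m' * d' + m' := by ring
  rw [e1, e2] at hle
  omega

/-- **T3** from the leaves. -/
theorem t3Prop_of_leaves (L : DLeaves p P) : T3Prop p P := by
  classical
  intro hp _ hP W _ _ act O hact hcard hcyc hsimple
  haveI : Fintype W := Fintype.ofFinite W
  have hcardF : Fintype.card W = p ^ 2 := by rw [← Nat.card_eq_fintype_card, hcard]
  obtain ⟨τ₀, hτ₀, hτ₀gen⟩ := hcyc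
  have hcomm : IsCommAct P act := isCommAct_of_cyclic ⟨hτ₀, hτ₀gen⟩
  obtain ⟨N₀, hN₀, hN₀'⟩ := dasm_exists_proper (W := W) hp hcard
  have hnt : ∃ σ ∈ P.inertiaSubgroupIn ℚ, ∃ w, act σ w ≠ w := by
    by_contra h
    have htriv : ∀ σ ∈ P.inertiaSubgroupIn ℚ, ∀ w, act σ w = w :=
      fun σ hσ w => by_contra fun hw => h ⟨σ, hσ, w, hw⟩
    rcases hsimple N₀ (fun σ hσ n hn => by rw [htriv σ hσ n]; exact hn) with h3 | h3
    · exact hN₀ h3
    · exact hN₀' h3
  obtain ⟨X, hX⟩ := L.pair W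
  have hnt' : ∃ σ ∈ P.inertiaSubgroupIn ℚ, ∃ χ : W → Kb, IsCharFun χ ∧
      ∃ w, χ (act σ w) ≠ σ (χ w) := by
    by_contra h
    have hsc : ∀ σ ∈ P.inertiaSubgroupIn ℚ, ∃ k : ℕ, ∀ w, act σ w = k • w := by
      intro σ hσ
      refine dasm_scalar hX σ (fun a w => ?_)
      by_contra h4
      exact h ⟨σ, hσ, X a, hX.1 a, w, h4⟩
    rcases hsimple N₀ (fun σ hσ n hn => by
      obtain ⟨k, hk⟩ := hsc σ hσ
      exact dasm_scalar_stable N₀ hk n hn) with h3 | h3
    · exact hN₀ h3
    · exact hN₀' h3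
  obtain ⟨b, m, m', d, d', α, α', hb, hd, hd', hc, hc', hα, hα', hrel, hfin⟩ :=
    dcore hp hP L.basis L.char L.pair L.det L.dact L.fam L.red L.schur L.orbit O hact hcomm
      hsimple hnt hnt' (by rw [hcardF]; exact dvd_pow_self p two_ne_zero)
  rw [hcardF] at hrel hc hc'
  have hrel' : (α * α') ^ 2 * (p : Kb) ^ (2 * (m * (d + 1) + m' * (d' + 1))) =
      (p : Kb) ^ (2 * (2 * p ^ 2)) := by
    rw [hrel]
    push_cast
    rw [← pow_mul]
  have hle := dasm_exp_le hp hP (pow_mem (P.mul_mem _ _ hα hα') 2) hrel'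
  have hp2 : 2 ≤ p := hp.two_le
  have hpp : 4 ≤ p ^ 2 := by nlinarith
  have hm : 1 ≤ m := by
    rcases Nat.eq_zero_or_pos m with h | h
    · rw [h, zero_mul] at hc
      omega
    · exact h
  have hm' : 1 ≤ m' := by
    rcases Nat.eq_zero_or_pos m' with h | h
    · rw [h, zero_mul] at hc'
      omega
    · exact h
  have e1 : m * (d + 1) = m * d + m := by ring
  have e2 : m' * (d' + 1) = m' * d' + m' := by ring
  have hm1 : m = 1 := by
    rw [e1, e2] at hle
    omega
  have hm1' : m' = 1 := by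
    rw [e1, e2] at hle
    omega
  have hexp : 2 * (m * (d + 1) + m' * (d' + 1)) = 2 * (2 * p ^ 2) := by
    rw [e1, e2]
    omega
  rw [hexp] at hrel'
  have hunit : α ∉ P.nonunits := dasm_unit hp hα hα' hrel'
  obtain ⟨htrans, i, hi⟩ := hfin hunit hm1
  have hdeq : d = p ^ 2 - 1 := by
    rw [hm1, one_mul] at hc
    omega
  refine ⟨htrans, ?_⟩
  -- the function `Z = b i - b i 0`
  have hr : b i 0 ∈ inertiaRing P :=
    ⟨O.int _ (hb.1 i) 0, fun σ hσ => by
      rw [← O.equiv _ (hb.1 i) σ hσ 0, iact_zero hact hσ]⟩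
  have hZ : (fun w => b i w - b i 0) ∈ O.alg := by
    have h1 : (fun w => b i w - b i 0) =
        b i - algebraMap (inertiaRing P) (W → Kb) ⟨b i 0, hr⟩ := by
      funext w
      rfl
    rw [h1]
    exact Subalgebra.sub_mem _ (hb.1 i) (Subalgebra.algebraMap_mem _ _)
  refine ⟨fun w => b i w - b i 0, hZ, sub_self _, fun a ha => ?_⟩
  have hu := hi a ha
  rw [hdeq] at hu
  refine ⟨?_, ?_, ?_⟩
  · show (b i a - b i 0) ^ (p ^ 2 - 1) / (p : Kb) ^ 1 ∈ P
    rw [pow_one]
    exact hu.mem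
  · intro h0
    have h0' : b i a - b i 0 = 0 := h0
    have hne : p ^ 2 - 1 ≠ 0 := by omega
    rw [h0', zero_pow hne, zero_div] at hu
    exact hu.ne_zero rfl
  · show (p : Kb) ^ 1 / (b i a - b i 0) ^ (p ^ 2 - 1) ∈ P
    have := hu.inv.mem
    rwa [inv_div, ← pow_one (p : Kb)] at this

end Fermat.Agent.S56.SS
end MergeWrap_S56_W4_C_D_Asm

section MergeWrap_S56_W4_C_D_Char -- from S56/W4/C/D/Char.lean

set_option autoImplicit false
set_option linter.unusedSectionVars false

namespace Fermat.Agent.S56.SS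

open Fermat.Agent.FFL

local notation "Kb" => AlgebraicClosure ℚ
local notation "GK" => (AlgebraicClosure ℚ ≃ₐ[ℚ] AlgebraicClosure ℚ)

section

variable {P : ValuationSubring Kb} {W : Type} [AddCommGroup W] [Fintype W]

/-- The `P`-combinations of a family of functions. -/
def pComb (P : ValuationSubring Kb) (b : W → W → Kb) : Set (W → Kb) :=
  {f | ∃ a : W → Kb, (∀ i, a i ∈ P) ∧ f = ∑ i, a i • b i}

theorem pComb_basis_mem (b : W → W → Kb) (i : W) : b i ∈ pComb P b := by
  classical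
  refine ⟨fun j => if j = i then 1 else 0, fun j => ?_, ?_⟩
  · by_cases h : j = i
    · simp only [h, if_true]; exact P.one_mem
    · simp only [h, if_false]; exact P.zero_mem
  · simp

theorem pComb_sum_mem (b : W → W → Kb) {ι : Type*} (s : Finset ι) (c : ι → Kb) (f : ι → W → Kb)
    (hc : ∀ j ∈ s, c j ∈ P) (hf : ∀ j ∈ s, f j ∈ pComb P b) :
    (∑ j ∈ s, c j • f j) ∈ pComb P b := by
  classical
  induction s using Finset.induction_on with
  | empty =>
    refine ⟨fun _ => 0, fun _ => P.zero_mem, ?_⟩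
    simp
  | insert j s hj ih =>
    obtain ⟨a, ha, hfa⟩ := ih (fun x hx => hc x (Finset.mem_insert_of_mem hx))
      (fun x hx => hf x (Finset.mem_insert_of_mem hx))
    obtain ⟨a', ha', hfa'⟩ := hf j (Finset.mem_insert_self j s)
    refine ⟨fun i => c j * a' i + a i, fun i =>
      P.add_mem _ _ (P.mul_mem _ _ (hc j (Finset.mem_insert_self j s)) (ha' i)) (ha i), ?_⟩
    rw [Finset.sum_insert hj, hfa, hfa', Finset.smul_sum, ← Finset.sum_add_distrib]
    refine Finset.sum_congr rfl (fun i _ => ?_)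
    rw [add_smul, mul_smul]

theorem pComb_of_mem_alg {act : GK → W → W} (O : IOrd P W act) {b : W → W → Kb}
    (hb : IsOrdBasis O b) {f : W → Kb} (hf : f ∈ O.alg) : f ∈ pComb P b := by
  obtain ⟨c, hc, rfl⟩ := hb.2.2 f hf
  exact ⟨c, fun i => (hc i).1, rfl⟩

theorem pComb_apply_mem {act : GK → W → W} (O : IOrd P W act) {b : W → W → Kb}
    (hb : IsOrdBasis O b) {f : W → Kb} (hf : f ∈ pComb P b) (w : W) : f w ∈ P := by
  obtain ⟨a, ha, rfl⟩ := hf
  rw [Finset.sum_apply]
  refine P.toSubring.sum_mem (fun i _ => ?_)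
  show a i * b i w ∈ P
  exact P.mul_mem _ _ (ha i) (O.int _ (hb.1 i) w)

/-- The shift operator is additive and homogeneous. -/
theorem shiftFun_sum_smul (u : (W → Kb) →ₗ[Kb] Kb) (a : W → Kb) (b : W → W → Kb) :
    shiftFun u (∑ i, a i • b i) = ∑ i, a i • shiftFun u (b i) := by
  funext w
  unfold shiftFun
  have h1 : (fun w' => (∑ i, a i • b i) (w + w')) = ∑ i, a i • (fun w' => b i (w + w')) := by
    funext w'
    simp only [Finset.sum_apply, Pi.smul_apply]
  rw [h1, map_sum]
  simp only [map_smul, Finset.sum_apply, Pi.smul_apply]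

/-- If `u` is `P`-valued on the `P`-combinations, `T_u` preserves them. -/
theorem shiftFun_mem_pComb {act : GK → W → W} (O : IOrd P W act) {b : W → W → Kb}
    (hb : IsOrdBasis O b) (u : (W → Kb) →ₗ[Kb] Kb) (hu : ∀ f ∈ pComb P b, u f ∈ P)
    {f : W → Kb} (hf : f ∈ pComb P b) : shiftFun u f ∈ pComb P b := by
  have hbasis : ∀ i, shiftFun u (b i) ∈ pComb P b := by
    intro i
    obtain ⟨n, g, h, hg, hh, hgh⟩ := O.comul (b i) (hb.1 i)
    have h1 : shiftFun u (b i) = ∑ j, u (h j) • g j := by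
      funext w
      unfold shiftFun
      have h2 : (fun w' => b i (w + w')) = ∑ j, g j w • h j := by
        funext w'
        rw [hgh]
        simp only [Finset.sum_apply, Pi.smul_apply, smul_eq_mul]
      rw [h2, map_sum]
      simp only [map_smul, smul_eq_mul, Finset.sum_apply, Pi.smul_apply]
      exact Finset.sum_congr rfl (fun j _ => mul_comm _ _)
    rw [h1]
    exact pComb_sum_mem b Finset.univ _ _
      (fun j _ => hu _ (pComb_of_mem_alg O hb (hh j)))
      (fun j _ => pComb_of_mem_alg O hb (hg j))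
  obtain ⟨a, ha, rfl⟩ := hf
  rw [shiftFun_sum_smul]
  exact pComb_sum_mem b Finset.univ _ _ (fun i _ => ha i) (fun i _ => hbasis i)

theorem shiftFun_iterate_mem_pComb {act : GK → W → W} (O : IOrd P W act) {b : W → W → Kb}
    (hb : IsOrdBasis O b) (u : (W → Kb) →ₗ[Kb] Kb) (hu : ∀ f ∈ pComb P b, u f ∈ P)
    {f : W → Kb} (hf : f ∈ pComb P b) (n : ℕ) : (shiftFun u)^[n] f ∈ pComb P b := by
  induction n with
  | zero => exact hf
  | succ n ih =>
    rw [Function.iterate_succ_apply']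
    exact shiftFun_mem_pComb O hb u hu ih

end

/-- **CHAR**: the coefficients of a character in a basis of an `I`-order are in `P`. -/
theorem charProp (p : ℕ) (P : ValuationSubring Kb) : CharProp p P := by
  intro hp hP W _ _ act O b hb χ hχ c hc i
  classical
  have hint : IntProp p P := intProp hp hP
  have hdvd : DvdProp p P := dvdProp hp hP
  -- the basis of all functions given by `b`
  have hcard : Fintype.card W = Module.finrank Kb (W → Kb) := by
    rw [Module.finrank_pi]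
  let B : Module.Basis W Kb (W → Kb) := basisOfLinearIndependentOfCardEqFinrank hb.2.1 hcard
  have hB : ∀ j, B j = b j := fun j => by
    show basisOfLinearIndependentOfCardEqFinrank hb.2.1 hcard j = b j
    rw [coe_basisOfLinearIndependentOfCardEqFinrank]
  have hcoordsum : ∀ (a : W → Kb) (j : W), B.coord j (∑ l, a l • b l) = a j := by
    intro a j
    have h2 : (∑ l, a l • b l) = ∑ l, a l • B l := by simp only [hB]
    rw [h2, Module.Basis.coord_apply, Module.Basis.repr_sum_self]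
  -- the coordinate functionals are `P`-valued on the `P`-combinations
  have hcoord : ∀ j, ∀ f ∈ pComb P b, B.coord j f ∈ P := by
    rintro j f ⟨a, ha, rfl⟩
    rw [hcoordsum]
    exact ha j
  -- FULL: a `p`-power multiple of `χ` is a `P`-combination
  obtain ⟨N, hN⟩ : ∃ N : ℕ, (fun w => (p : Kb) ^ N * χ w) ∈ pComb P b := by
    choose m hm using fun l => exists_pow_mul_mem P hdvd (c l)
    refine ⟨∑ l, m l, fun l => (p : Kb) ^ (∑ l, m l) * c l, fun l => hm l _ ?_, ?_⟩
    · exact Finset.single_le_sum (fun j _ => Nat.zero_le (m j)) (Finset.mem_univ l)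
    · funext w
      rw [hc]
      simp only [Finset.sum_apply, Pi.smul_apply, smul_eq_mul, Finset.mul_sum, mul_assoc]
  have hci : c i = B.coord i χ := by
    rw [hc, hcoordsum]
  rw [hci]
  refine hint _ ⟨N, fun n => ?_⟩
  have h1 := shiftFun_iterate_mem_pComb O hb (B.coord i) (hcoord i) hN n
  rw [shiftFun_iterate_char (B.coord i) χ hχ.2] at h1
  have h2 := pComb_apply_mem O hb h1 0
  rw [hχ.1, mul_one] at h2
  exact h2

end Fermat.Agent.S56.SS
end MergeWrap_S56_W4_C_D_Char

section MergeWrap_S56_W4_C_D_Pair -- from S56/W4/C/D/Pair.lean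

set_option autoImplicit false
set_option linter.style.haveILetI false

namespace Fermat.Agent.S56.SS

open Fermat.Agent.FFL

local notation "Kb" => AlgebraicClosure ℚ
local notation "GK" => (AlgebraicClosure ℚ ≃ₐ[ℚ] AlgebraicClosure ℚ)

/-- `ℚ̄` has enough roots of unity for every finite group. -/
theorem pair_hasEnoughRootsOfUnity (n : ℕ) (hn : n ≠ 0) : HasEnoughRootsOfUnity Kb n := by
  haveI : NeZero ((n : ℕ) : ℚ) := ⟨by exact_mod_cast hn⟩
  infer_instance

/-- **PAIR**: a finite abelian group has a perfect pairing with values in `ℚ̄`. -/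
theorem pairProp : PairProp := by
  intro W _ _
  classical
  haveI : HasEnoughRootsOfUnity Kb (Monoid.exponent (Multiplicative W)) :=
    pair_hasEnoughRootsOfUnity _ Monoid.exponent_ne_zero_of_finite
  obtain ⟨e⟩ := CommGroup.monoidHom_mulEquiv_of_hasEnoughRootsOfUnity (Multiplicative W) Kb
  refine ⟨fun a w => ((e.symm (Multiplicative.ofAdd a) (Multiplicative.ofAdd w) : Kbˣ) : Kb),
    fun a => isCharFun_of_hom _, ?_, ?_, ?_, ?_⟩
  · intro a a' w
    simp only [ofAdd_add, map_mul, MonoidHom.mul_apply, Units.val_mul]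
  · intro a ha
    have h1 : e.symm (Multiplicative.ofAdd a) = 1 := by
      refine MonoidHom.ext (fun w => Units.ext ?_)
      have := ha (Multiplicative.toAdd w)
      simpa using this
    have h2 : Multiplicative.ofAdd a = 1 := by
      have := congrArg e h1
      simpa using this
    simpa using h2
  · intro w hw
    by_contra hne
    have hne' : Multiplicative.ofAdd w ≠ 1 := by
      intro h
      apply hne
      simpa using h
    obtain ⟨φ, hφ⟩ := CommGroup.exists_apply_ne_one_of_hasEnoughRootsOfUnity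
      (Multiplicative W) Kb hne'
    apply hφ
    have := hw (e φ).toAdd
    simp only [ofAdd_toAdd, MulEquiv.symm_apply_apply] at this
    exact Units.ext this
  · intro χ hχ
    refine ⟨(e hχ.toHom).toAdd, ?_⟩
    funext w
    simp only [ofAdd_toAdd, MulEquiv.symm_apply_apply]
    rfl

end Fermat.Agent.S56.SS
end MergeWrap_S56_W4_C_D_Pair

section MergeWrap_S56_W4_C_D_DualDet -- from S56/W4/C/D/DualDet.lean

set_option autoImplicit false

namespace Fermat.Agent.S56.SS

open Fermat.Agent.FFL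

local notation "Kb" => AlgebraicClosure ℚ
local notation "GK" => (AlgebraicClosure ℚ ≃ₐ[ℚ] AlgebraicClosure ℚ)

/-- Orthogonality in matrix form. -/
theorem dualDet_mul {W : Type} [AddCommGroup W] [Fintype W] [DecidableEq W] {X : W → W → Kb}
    (hX : IsPairing X) :
    (Matrix.of X : Matrix W W Kb) * (Matrix.of (fun w a => X a (-w)) : Matrix W W Kb) =
      (Fintype.card W : Kb) • (1 : Matrix W W Kb) := by
  ext a a'
  simp only [Matrix.mul_apply, Matrix.of_apply, Matrix.smul_apply, Matrix.one_apply, smul_eq_mul]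
  have h1 : ∀ w, X a w * X a' (-w) = X (a - a') w := fun w => by
    rw [hX.neg_right, hX.sub_left, div_eq_mul_inv]
  simp only [h1]
  rw [hX.sum_right]
  by_cases h : a = a'
  · subst h; simp
  · rw [if_neg (sub_ne_zero.2 h), if_neg h, mul_zero]

/-- The determinant of the character table: `det * (± det) = n ^ n`. -/
theorem dualDet_sq {W : Type} [AddCommGroup W] [Fintype W] [DecidableEq W] {X : W → W → Kb}
    (hX : IsPairing X) :
    ∃ ε : Kb, ε ^ 2 = 1 ∧
      ε * (Matrix.of X : Matrix W W Kb).det ^ 2 = (Fintype.card W : Kb) ^ Fintype.card W := by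
  set M : Matrix W W Kb := Matrix.of X with hM
  set N : Matrix W W Kb := Matrix.of (fun w a => X a (-w)) with hN
  have hNM : N = (M.transpose).submatrix (Equiv.neg W) id := by
    ext w a
    simp [hN, hM, Matrix.submatrix_apply, Matrix.transpose_apply]
  have hdetN : N.det = ((Equiv.Perm.sign (Equiv.neg W) : ℤˣ) : ℤ) * M.det := by
    rw [hNM, Matrix.det_permute, Matrix.det_transpose]
  have hdet : M.det * N.det = (Fintype.card W : Kb) ^ Fintype.card W := by
    rw [← Matrix.det_mul, dualDet_mul hX, Matrix.det_smul, Matrix.det_one, mul_one]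
  refine ⟨(((Equiv.Perm.sign (Equiv.neg W) : ℤˣ) : ℤ) : Kb), ?_, ?_⟩
  · have : (((Equiv.Perm.sign (Equiv.neg W) : ℤˣ) : ℤ)) ^ 2 = 1 := by
      rw [← Units.val_pow_eq_pow_val, Int.units_sq, Units.val_one]
    exact_mod_cast this
  · rw [← hdet, hdetN]; ring

/-- **DUALDET**: the character table has `det ^ 4 = n ^ (2 n)`. -/
theorem dualDet : DualDetProp := by
  intro W _ _ _ X hX
  obtain ⟨ε, hε, h⟩ := dualDet_sq hX
  calc (Matrix.of X).det ^ 4 = ε ^ 2 * ((Matrix.of X).det ^ 2) ^ 2 := by rw [hε]; ring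
    _ = (ε * (Matrix.of X).det ^ 2) ^ 2 := by ring
    _ = (Fintype.card W : Kb) ^ (2 * Fintype.card W) := by rw [h, ← pow_mul, mul_comm]

end Fermat.Agent.S56.SS
end MergeWrap_S56_W4_C_D_DualDet

section MergeWrap_S56_W4_C_D_DualAct -- from S56/W4/C/D/DualAct.lean

set_option autoImplicit false
set_option linter.style.haveILetI false

namespace Fermat.Agent.S56.SS

open Fermat.Agent.FFL

local notation "Kb" => AlgebraicClosure ℚ
local notation "GK" => (AlgebraicClosure ℚ ≃ₐ[ℚ] AlgebraicClosure ℚ)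

/-- Two automorphisms commute on a root of unity. -/
theorem dualAct_gal_comm (ζ : Kb) (n : ℕ) (hn : n ≠ 0) (hζ : ζ ^ n = 1) (σ τ : GK) :
    σ (τ ζ) = τ (σ ζ) := by
  haveI : NeZero n := ⟨hn⟩
  obtain ⟨k, hk⟩ := map_rootsOfUnity_eq_pow_self σ (rootsOfUnity.mkOfPowEq ζ hζ)
  obtain ⟨l, hl⟩ := map_rootsOfUnity_eq_pow_self τ (rootsOfUnity.mkOfPowEq ζ hζ)
  have hk' : σ ζ = ζ ^ k := by simpa using hk
  have hl' : τ ζ = ζ ^ l := by simpa using hl
  rw [hl', hk', map_pow, map_pow, hk', hl', ← pow_mul, ← pow_mul, mul_comm]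

section Act

variable {P : ValuationSubring Kb} {W : Type} [AddCommGroup W] {act : GK → W → W}

theorem IsIAction.map_add (h : IsIAction P act) {σ : GK} (hσ : σ ∈ P.inertiaSubgroupIn ℚ)
    (w w' : W) : act σ (w + w') = act σ w + act σ w' := h.1 σ hσ w w'

theorem IsIAction.map_zero (h : IsIAction P act) {σ : GK} (hσ : σ ∈ P.inertiaSubgroupIn ℚ) :
    act σ 0 = 0 := by
  have := h.1 σ hσ 0 0
  rw [add_zero] at this
  exact left_eq_add.1 this

theorem IsIAction.one (h : IsIAction P act) (w : W) : act 1 w = w := h.2.1 w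

theorem IsIAction.mul (h : IsIAction P act) {σ τ : GK} (hσ : σ ∈ P.inertiaSubgroupIn ℚ)
    (hτ : τ ∈ P.inertiaSubgroupIn ℚ) (w : W) : act (σ * τ) w = act σ (act τ w) :=
  h.2.2 σ hσ τ hτ w

theorem IsIAction.inv_cancel (h : IsIAction P act) {σ : GK} (hσ : σ ∈ P.inertiaSubgroupIn ℚ)
    (w : W) : act σ⁻¹ (act σ w) = w := by
  rw [← h.mul (inv_mem hσ) hσ, inv_mul_cancel, h.one]

theorem IsIAction.cancel_inv (h : IsIAction P act) {σ : GK} (hσ : σ ∈ P.inertiaSubgroupIn ℚ)
    (w : W) : act σ (act σ⁻¹ w) = w := by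
  rw [← h.mul hσ (inv_mem hσ), mul_inv_cancel, h.one]

theorem IsIAction.map_neg (h : IsIAction P act) {σ : GK} (hσ : σ ∈ P.inertiaSubgroupIn ℚ)
    (w : W) : act σ (-w) = -act σ w := by
  have h1 := h.map_add hσ w (-w)
  rw [add_neg_cancel, h.map_zero hσ] at h1
  exact eq_neg_of_add_eq_zero_right h1.symm

theorem IsIAction.map_sub (h : IsIAction P act) {σ : GK} (hσ : σ ∈ P.inertiaSubgroupIn ℚ)
    (w w' : W) : act σ (w - w') = act σ w - act σ w' := by
  rw [sub_eq_add_neg, h.map_add hσ, h.map_neg hσ, sub_eq_add_neg]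

end Act

section Construction

variable {P : ValuationSubring Kb} {W : Type} [AddCommGroup W] {act : GK → W → W}
  {X : W → W → Kb}

/-- The twisted character `w ↦ σ (X a (act σ⁻¹ w))`. -/
theorem dualAct_isCharFun (hact : IsIAction P act) (hX : IsPairing X) {σ : GK}
    (hσ : σ ∈ P.inertiaSubgroupIn ℚ) (a : W) :
    IsCharFun (fun w => σ (X a (act σ⁻¹ w))) :=
  ((hX.char a).comp (act σ⁻¹) (hact.map_zero (inv_mem hσ))
    (hact.map_add (inv_mem hσ))).gal σ

open Classical in
/-- The dual action. -/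
noncomputable def dualActFun (P : ValuationSubring Kb) (act : GK → W → W) (X : W → W → Kb)
    (hact : IsIAction P act) (hX : IsPairing X) : GK → W → W :=
  fun σ a => if hσ : σ ∈ P.inertiaSubgroupIn ℚ then
    Classical.choose (hX.surj (dualAct_isCharFun hact hX hσ a)) else a

theorem dualActFun_spec (hact : IsIAction P act) (hX : IsPairing X) {σ : GK}
    (hσ : σ ∈ P.inertiaSubgroupIn ℚ) (a w : W) :
    X (dualActFun P act X hact hX σ a) w = σ (X a (act σ⁻¹ w)) := by
  unfold dualActFun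
  rw [dif_pos hσ]
  exact (congrFun (Classical.choose_spec (hX.surj (dualAct_isCharFun hact hX hσ a))) w).symm

theorem dualActFun_isDualAct (hact : IsIAction P act) (hX : IsPairing X) :
    IsDualAct P act (dualActFun P act X hact hX) X := by
  intro σ hσ a w
  rw [dualActFun_spec hact hX hσ, hact.inv_cancel hσ]

theorem dualActFun_isIAction (hact : IsIAction P act) (hX : IsPairing X) :
    IsIAction P (dualActFun P act X hact hX) := by
  refine ⟨fun σ hσ a a' => ?_, fun a => ?_, fun σ hσ τ hτ a => ?_⟩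
  · apply hX.injective
    funext w
    rw [hX.add_left, dualActFun_spec hact hX hσ, dualActFun_spec hact hX hσ,
      dualActFun_spec hact hX hσ, hX.add_left, map_mul]
  · apply hX.injective
    funext w
    rw [dualActFun_spec hact hX (one_mem _), inv_one, hact.one]
    rfl
  · apply hX.injective
    funext w
    rw [dualActFun_spec hact hX (mul_mem hσ hτ), dualActFun_spec hact hX hσ,
      dualActFun_spec hact hX hτ, mul_inv_rev, hact.mul (inv_mem hτ) (inv_mem hσ)]
    rfl

theorem dualActFun_isCommAct [Finite W] (hact : IsIAction P act) (hX : IsPairing X)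
    (hc : IsCommAct P act) : IsCommAct P (dualActFun P act X hact hX) := by
  intro σ hσ τ hτ a
  apply hX.injective
  funext w
  rw [dualActFun_spec hact hX hσ, dualActFun_spec hact hX hτ, dualActFun_spec hact hX hτ,
    dualActFun_spec hact hX hσ, hc σ⁻¹ (inv_mem hσ) τ⁻¹ (inv_mem hτ) w]
  exact dualAct_gal_comm _ (Nat.card W) Nat.card_pos.ne' (hX.pow_card _ _) σ τ

/-- The annihilator of a subgroup of the index group. -/
def dualAnn (X : W → W → Kb) (hX : IsPairing X) (N : AddSubgroup W) : AddSubgroup W where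
  carrier := {w | ∀ a ∈ N, X a w = 1}
  zero_mem' := fun a _ => hX.zero_right a
  add_mem' := by
    intro w w' hw hw' a ha
    rw [hX.add_right, hw a ha, hw' a ha, one_mul]
  neg_mem' := by
    intro w hw a ha
    rw [hX.neg_right, hw a ha, inv_one]

theorem mem_dualAnn (hX : IsPairing X) (N : AddSubgroup W) (w : W) :
    w ∈ dualAnn X hX N ↔ ∀ a ∈ N, X a w = 1 := Iff.rfl

/-- If the annihilator of `N` is trivial then `N` is everything (count of characters). -/
theorem dualAnn_eq_bot [Finite W] (hX : IsPairing X) (N : AddSubgroup W)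
    (h : dualAnn X hX N = ⊥) : N = ⊤ := by
  classical
  -- the characters of `N` given by the points of `W`
  have hch : ∀ w : W, IsCharFun (fun a : N => X (a : W) w) := fun w =>
    (hX.char_left w).comp (fun a : N => (a : W)) rfl (fun _ _ => rfl)
  let Ψ : W → (Multiplicative N →* Kbˣ) := fun w => (hch w).toHom
  have hΨ : Function.Injective Ψ := by
    intro w w' hww
    have h1 : w - w' ∈ dualAnn X hX N := by
      intro a ha
      have h2 := congrArg (fun φ : Multiplicative N →* Kbˣ =>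
        ((φ (Multiplicative.ofAdd (⟨a, ha⟩ : N)) : Kbˣ) : Kb)) hww
      have h3 : X a w = X a w' := h2
      rw [(hX.char a).map_sub, h3, div_self (hX.ne_zero a w')]
    rw [h, AddSubgroup.mem_bot] at h1
    exact sub_eq_zero.1 h1
  haveI : HasEnoughRootsOfUnity Kb (Monoid.exponent (Multiplicative N)) :=
    pair_hasEnoughRootsOfUnity _ Monoid.exponent_ne_zero_of_finite
  have hcard : Nat.card (Multiplicative N →* Kbˣ) = Nat.card (Multiplicative N) :=
    CommGroup.card_monoidHom_of_hasEnoughRootsOfUnity (Multiplicative N) Kb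
  have h1 : Nat.card W ≤ Nat.card N := by
    calc Nat.card W ≤ Nat.card (Multiplicative N →* Kbˣ) := Nat.card_le_card_of_injective Ψ hΨ
      _ = Nat.card (Multiplicative N) := hcard
      _ = Nat.card N := rfl
  exact AddSubgroup.eq_top_of_le_card N h1

theorem dualActFun_isSimpleAct [Finite W] (hact : IsIAction P act) (hX : IsPairing X)
    (hs : IsSimpleAct P act) : IsSimpleAct P (dualActFun P act X hact hX) := by
  intro N hN
  have hact' := dualActFun_isIAction hact hX
  have hstable : ∀ σ ∈ P.inertiaSubgroupIn ℚ, ∀ w ∈ dualAnn X hX N,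
      act σ w ∈ dualAnn X hX N := by
    intro σ hσ w hw a ha
    have h1 := dualActFun_isDualAct hact hX σ hσ (dualActFun P act X hact hX σ⁻¹ a) w
    rw [hact'.cancel_inv hσ] at h1
    rw [h1, hw _ (hN σ⁻¹ (inv_mem hσ) a ha), map_one]
  rcases hs (dualAnn X hX N) hstable with h | h
  · right
    exact dualAnn_eq_bot hX N h
  · left
    rw [eq_bot_iff]
    intro a ha
    rw [AddSubgroup.mem_bot]
    refine hX.eq_zero_left (fun w => ?_)
    have : w ∈ dualAnn X hX N := by rw [h]; exact AddSubgroup.mem_top w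
    exact this a ha

end Construction

/-- **DUALACT**. -/
theorem dualAct (P : ValuationSubring Kb) : DualActProp P := by
  intro W _ _ act X hact hX
  exact ⟨dualActFun P act X hact hX, dualActFun_isIAction hact hX,
    dualActFun_isDualAct hact hX, dualActFun_isCommAct hact hX,
    dualActFun_isSimpleAct hact hX⟩

end Fermat.Agent.S56.SS
end MergeWrap_S56_W4_C_D_DualAct

section MergeWrap_S56_W4_C_D_DualFam -- from S56/W4/C/D/DualFam.lean

set_option autoImplicit false

namespace Fermat.Agent.S56.SS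

open Fermat.Agent.FFL

local notation "Kb" => AlgebraicClosure ℚ
local notation "GK" => (AlgebraicClosure ℚ ≃ₐ[ℚ] AlgebraicClosure ℚ)

/-- Uniqueness of the coefficients in a linearly independent family of functions. -/
theorem dualFam_coeff_unique {W : Type} [Fintype W] {b : W → W → Kb}
    (hb : LinearIndependent Kb b) {u v : W → Kb}
    (h : ∀ w, ∑ i, u i * b i w = ∑ i, v i * b i w) : u = v := by
  funext i
  have h1 : ∑ i, (u i - v i) • b i = 0 := by
    funext w
    simp only [Finset.sum_apply, Pi.smul_apply, smul_eq_mul, Pi.zero_apply, sub_mul,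
      Finset.sum_sub_distrib, h w, sub_self]
  exact sub_eq_zero.1 (Fintype.linearIndependent_iff.1 hb _ h1 i)

section Fam

variable {P : ValuationSubring Kb} {W : Type} [AddCommGroup W] [Fintype W]
  {act act' : GK → W → W} {O : IOrd P W act} {b X β : W → W → Kb}

/-- Equivariance of the coefficient family. -/
theorem dualFam_equiv (hact : IsIAction P act) (hb : IsOrdBasis O b)
    (hdual : IsDualAct P act act' X) (hexp : ∀ a w, X a w = ∑ i, β i a * b i w)
    {σ : GK} (hσ : σ ∈ P.inertiaSubgroupIn ℚ) (i a : W) :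
    β i (act' σ a) = σ (β i a) := by
  have key : (fun i => β i (act' σ a)) = (fun i => σ (β i a)) := by
    apply dualFam_coeff_unique hb.2.1
    intro w
    have hw : act σ (act σ⁻¹ w) = w := hact.cancel_inv hσ w
    rw [← hexp (act' σ a) w]
    have h1 : X (act' σ a) w = σ (X a (act σ⁻¹ w)) := by
      rw [← hdual σ hσ a (act σ⁻¹ w), hw]
    rw [h1, hexp a (act σ⁻¹ w), map_sum]
    refine Finset.sum_congr rfl (fun j _ => ?_)
    rw [map_mul, ← O.equiv (b j) (hb.1 j) σ hσ, hw]
  exact congrFun key i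

/-- Addition formula for the coefficient family. -/
theorem dualFam_add (hb : IsOrdBasis O b) (hX : IsPairing X)
    (hexp : ∀ a w, X a w = ∑ i, β i a * b i w) (c : W → W → W → Kb)
    (hc : ∀ j k, b j * b k = ∑ i, c j k i • b i) (a a' i : W) :
    β i (a + a') = ∑ j, ∑ k, c j k i * (β j a * β k a') := by
  have key : (fun i => β i (a + a')) = (fun i => ∑ j, ∑ k, c j k i * (β j a * β k a')) := by
    apply dualFam_coeff_unique hb.2.1
    intro w
    rw [← hexp (a + a') w, hX.add_left, hexp a w, hexp a' w, Finset.sum_mul_sum]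
    have h1 : ∀ j k, β j a * b j w * (β k a' * b k w) =
        ∑ i, c j k i * (β j a * β k a') * b i w := by
      intro j k
      have h2 : b j w * b k w = ∑ i, c j k i * b i w := by
        have := congrFun (hc j k) w
        simpa [Finset.sum_apply] using this
      calc β j a * b j w * (β k a' * b k w) = (β j a * β k a') * (b j w * b k w) := by ring
        _ = ∑ i, c j k i * (β j a * β k a') * b i w := by
            rw [h2, Finset.mul_sum]
            exact Finset.sum_congr rfl (fun i _ => by ring)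
    simp only [h1, Finset.sum_mul]
    calc ∑ j, ∑ k, ∑ i, c j k i * (β j a * β k a') * b i w
        = ∑ j, ∑ i, ∑ k, c j k i * (β j a * β k a') * b i w :=
          Finset.sum_congr rfl (fun j _ => Finset.sum_comm)
      _ = ∑ i, ∑ j, ∑ k, c j k i * (β j a * β k a') * b i w := Finset.sum_comm
  exact congrFun key i

/-- Negation formula for the coefficient family. -/
theorem dualFam_neg (hb : IsOrdBasis O b) (hX : IsPairing X)
    (hexp : ∀ a w, X a w = ∑ i, β i a * b i w) (n : W → W → Kb)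
    (hn : ∀ j, (fun w => b j (-w)) = ∑ i, n j i • b i) (a i : W) :
    β i (-a) = ∑ j, n j i * β j a := by
  have key : (fun i => β i (-a)) = (fun i => ∑ j, n j i * β j a) := by
    apply dualFam_coeff_unique hb.2.1
    intro w
    rw [← hexp (-a) w, hX.neg_left, ← hX.neg_right, hexp a (-w)]
    have h1 : ∀ j, β j a * b j (-w) = ∑ i, n j i * β j a * b i w := by
      intro j
      have h2 : b j (-w) = ∑ i, n j i * b i w := by
        have := congrFun (hn j) w
        simpa [Finset.sum_apply] using this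
      rw [h2, Finset.mul_sum]
      exact Finset.sum_congr rfl (fun i _ => by ring)
    simp only [h1, Finset.sum_mul]
    exact Finset.sum_comm
  exact congrFun key i

/-- Congruent points have congruent sums, for the coefficient family. -/
theorem dualFam_add_congr (hb : IsOrdBasis O b) (hX : IsPairing X)
    (hexp : ∀ a w, X a w = ∑ i, β i a * b i w) (hβ : ∀ i a, β i a ∈ P)
    (c : W → W → W → Kb) (hcP : ∀ j k i, c j k i ∈ P)
    (hc : ∀ j k, b j * b k = ∑ i, c j k i • b i) {a₁ a₁' a₂ a₂' : W}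
    (h1 : ∀ j, β j a₁ - β j a₁' ∈ P.nonunits) (h2 : ∀ k, β k a₂ - β k a₂' ∈ P.nonunits)
    (i : W) : β i (a₁ + a₂) - β i (a₁' + a₂') ∈ P.nonunits := by
  rw [dualFam_add hb hX hexp c hc, dualFam_add hb hX hexp c hc, ← Finset.sum_sub_distrib]
  refine red_sum_mem_nonunits P _ _ (fun j _ => ?_)
  rw [← Finset.sum_sub_distrib]
  refine red_sum_mem_nonunits P _ _ (fun k _ => ?_)
  have e : c j k i * (β j a₁ * β k a₂) - c j k i * (β j a₁' * β k a₂') =
      c j k i * ((β j a₁ - β j a₁') * β k a₂ + β j a₁' * (β k a₂ - β k a₂')) := by ring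
  rw [e]
  exact red_mul_mem_nonunits_left P (hcP j k i) (red_add_mem_nonunits P
    (red_mul_mem_nonunits_right P (h1 j) (hβ k a₂))
    (red_mul_mem_nonunits_left P (hβ j a₁') (h2 k)))

/-- The points at which the coefficient family is congruent to its value at `0`. -/
def dualFamKer (P : ValuationSubring Kb) (O : IOrd P W act) (b X β : W → W → Kb)
    (hb : IsOrdBasis O b) (hX : IsPairing X) (hexp : ∀ a w, X a w = ∑ i, β i a * b i w)
    (hβ : ∀ i a, β i a ∈ P) : AddSubgroup W where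
  carrier := {a | ∀ i, β i a - β i 0 ∈ P.nonunits}
  zero_mem' := fun i => by rw [sub_self]; exact red_zero_mem_nonunits P
  add_mem' := by
    intro a a' ha ha' i
    choose c hcR hc using fun j k => hb.2.2 (b j * b k) (O.alg.mul_mem (hb.1 j) (hb.1 k))
    have := dualFam_add_congr hb hX hexp hβ c (fun j k i => (hcR j k i).1) hc ha ha' i
    rwa [add_zero] at this
  neg_mem' := by
    intro a ha i
    choose n hnR hn using fun j => hb.2.2 (fun w => b j (-w)) (O.neg _ (hb.1 j))
    have h0 : β i 0 = β i (-0) := by rw [neg_zero]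
    rw [h0, dualFam_neg hb hX hexp n hn, dualFam_neg hb hX hexp n hn, ← Finset.sum_sub_distrib]
    refine red_sum_mem_nonunits P _ _ (fun j _ => ?_)
    rw [← mul_sub]
    exact red_mul_mem_nonunits_left P (hnR j i).1 (ha j)

/-- The augmentation subgroup of the dual action lies in the kernel. -/
theorem augI_le_dualFamKer (hact : IsIAction P act) (hb : IsOrdBasis O b) (hX : IsPairing X)
    (hdual : IsDualAct P act act' X) (hexp : ∀ a w, X a w = ∑ i, β i a * b i w)
    (hβ : ∀ i a, β i a ∈ P) :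
    augI P act' ≤ dualFamKer P O b X β hb hX hexp hβ := by
  unfold augI augOn
  rw [AddSubgroup.closure_le]
  rintro _ ⟨σ, hσ, a, -, rfl⟩
  intro i
  choose c hcR hc using fun j k => hb.2.2 (b j * b k) (O.alg.mul_mem (hb.1 j) (hb.1 k))
  have h1 : ∀ j, β j (act' σ a) - β j a ∈ P.nonunits := by
    intro j
    rw [dualFam_equiv hact hb hdual hexp hσ]
    exact Fermat.Agent.Cyclo.inertia_sub_mem_nonunits P hσ (hβ j a)
  have h2 : ∀ k, β k (-a) - β k (-a) ∈ P.nonunits := by
    intro k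
    rw [sub_self]
    exact red_zero_mem_nonunits P
  have := dualFam_add_congr hb hX hexp hβ c (fun j k i => (hcR j k i).1) hc h1 h2 i
  rwa [← sub_eq_add_neg, ← sub_eq_add_neg, sub_self] at this

end Fam

/-- **DUALFAM**. -/
theorem dualFam (p : ℕ) (P : ValuationSubring Kb) : DualFamProp p P := by
  intro _ _ W _ _ act act' O b X β hact _ hb hX hdual hexp hβ
  refine ⟨fun σ hσ i a => dualFam_equiv hact hb hdual hexp hσ i a, fun a ha i => ?_⟩
  exact augI_le_dualFamKer hact hb hX hdual hexp hβ ha i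

end Fermat.Agent.S56.SS
end MergeWrap_S56_W4_C_D_DualFam

section MergeWrap_S56_W4_C_D_Schur -- from S56/W4/C/D/Schur.lean

set_option autoImplicit false

namespace Fermat.Agent.S56.SS

open Fermat.Agent.FFL

local notation "Kb" => AlgebraicClosure ℚ
local notation "GK" => (AlgebraicClosure ℚ ≃ₐ[ℚ] AlgebraicClosure ℚ)

/-- The action of inertia as a monoid homomorphism to the endomorphism ring of `W`. -/
def schurAuxHom (P : ValuationSubring Kb) {W : Type} [AddCommGroup W] (act : GK → W → W)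
    (h : IsIAction P act) : (P.inertiaSubgroupIn ℚ) →* AddMonoid.End W where
  toFun σ := AddMonoidHom.mk' (act σ.1) (h.1 σ.1 σ.2)
  map_one' := by
    ext w
    exact h.2.1 w
  map_mul' σ τ := by
    ext w
    exact h.2.2 σ.1 σ.2 τ.1 τ.2 w

theorem schurAuxHom_apply (P : ValuationSubring Kb) {W : Type} [AddCommGroup W]
    (act : GK → W → W) (h : IsIAction P act) (σ : P.inertiaSubgroupIn ℚ) (w : W) :
    schurAuxHom P act h σ w = act σ.1 w := rfl

/-- The generators commute. -/
theorem schurAux_comm (P : ValuationSubring Kb) {W : Type} [AddCommGroup W]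
    (act : GK → W → W) (h : IsIAction P act) (hc : IsCommAct P act) :
    ∀ x ∈ Set.range (schurAuxHom P act h), ∀ y ∈ Set.range (schurAuxHom P act h),
      x * y = y * x := by
  rintro _ ⟨σ, rfl⟩ _ ⟨τ, rfl⟩
  ext w
  exact hc σ.1 σ.2 τ.1 τ.2 w

/-- An endomorphism commuting with the action is zero or injective; so a product which is zero
has a zero factor. -/
theorem schurAux_zero_or (P : ValuationSubring Kb) {W : Type} [AddCommGroup W]
    (act : GK → W → W) (h : IsIAction P act) (hs : IsSimpleAct P act)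
    (a b : AddMonoid.End W)
    (hcomm : ∀ σ : P.inertiaSubgroupIn ℚ, a * schurAuxHom P act h σ = schurAuxHom P act h σ * a)
    (hab : a * b = 0) : a = 0 ∨ b = 0 := by
  let N : AddSubgroup W :=
    { carrier := {w | a w = 0}
      zero_mem' := map_zero a
      add_mem' := fun {x y} hx hy => by
        have hx' : a x = 0 := hx
        have hy' : a y = 0 := hy
        change a (x + y) = 0
        rw [map_add, hx', hy', add_zero]
      neg_mem' := fun {x} hx => by
        have hx' : a x = 0 := hx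
        change a (-x) = 0
        rw [map_neg, hx', neg_zero] }
  have hN : ∀ w, w ∈ N ↔ a w = 0 := fun w => Iff.rfl
  have hstab : ∀ σ ∈ P.inertiaSubgroupIn ℚ, ∀ n ∈ N, act σ n ∈ N := by
    intro σ hσ n hn
    rw [hN] at hn ⊢
    have h1 := DFunLike.congr_fun (hcomm ⟨σ, hσ⟩) n
    simp only [AddMonoid.End.coe_mul, Function.comp_apply, schurAuxHom_apply] at h1
    rw [h1, hn]
    exact map_zero (schurAuxHom P act h ⟨σ, hσ⟩)
  rcases hs N hstab with h0 | h1
  · right
    ext w
    have h2 : b w ∈ N := by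
      rw [hN]
      exact DFunLike.congr_fun hab w
    rw [h0, AddSubgroup.mem_bot] at h2
    exact h2
  · left
    ext w
    have h2 : w ∈ N := by rw [h1]; exact AddSubgroup.mem_top w
    exact (hN w).1 h2

/-- **SCHUR**. -/
theorem schurProp (P : ValuationSubring Kb) : SchurProp P := by
  intro W _ _ act h hc hs
  classical
  rcases subsingleton_or_nontrivial W with hW | hW
  · exact ⟨1, Subgroup.one_mem _, fun σ _ => ⟨0, fun w => Subsingleton.elim _ _⟩⟩
  let φ := schurAuxHom P act h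
  let E : Subring (AddMonoid.End W) := Subring.closure (Set.range φ)
  have hEc : IsMulCommutative E := Subring.isMulCommutative_closure (schurAux_comm P act h hc)
  let : CommRing E := { (inferInstance : Ring E) with mul_comm := hEc.is_comm.comm }
  have hφE : ∀ σ, φ σ ∈ E := fun σ => Subring.subset_closure ⟨σ, rfl⟩
  have : Finite (AddMonoid.End W) :=
    Finite.of_injective (fun f : AddMonoid.End W => (f : W → W)) DFunLike.coe_injective
  have : Finite E := inferInstance
  have : Nontrivial E := by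
    obtain ⟨x, y, hxy⟩ := exists_pair_ne W
    refine ⟨⟨0, 1, fun h01 => hxy ?_⟩⟩
    have h1 : ((0 : E) : AddMonoid.End W) = ((1 : E) : AddMonoid.End W) := by rw [h01]
    have h2 : (0 : AddMonoid.End W) = 1 := h1
    have hx := DFunLike.congr_fun h2 x
    have hy := DFunLike.congr_fun h2 y
    simp only [AddMonoid.End.zero_apply, AddMonoid.End.one_apply] at hx hy
    rw [← hx, ← hy]
  have : NoZeroDivisors E := by
    refine ⟨fun {a b} hab => ?_⟩
    have hab' : (a : AddMonoid.End W) * (b : AddMonoid.End W) = 0 := by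
      have := congrArg (fun e : E => (e : AddMonoid.End W)) hab
      exact this
    have hcomm : ∀ σ : P.inertiaSubgroupIn ℚ, (a : AddMonoid.End W) * schurAuxHom P act h σ
        = schurAuxHom P act h σ * (a : AddMonoid.End W) := by
      intro σ
      have := congrArg (fun e : E => (e : AddMonoid.End W)) (mul_comm a ⟨φ σ, hφE σ⟩)
      exact this
    rcases schurAux_zero_or P act h hs a b hcomm hab' with h0 | h0
    · left
      exact Subtype.ext h0
    · right
      exact Subtype.ext h0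
  have : IsDomain E := NoZeroDivisors.to_isDomain E
  -- the action as a homomorphism to the units of `E`
  let φE : (P.inertiaSubgroupIn ℚ) →* E :=
    { toFun := fun σ => ⟨φ σ, hφE σ⟩
      map_one' := Subtype.ext (map_one φ)
      map_mul' := fun σ τ => Subtype.ext (map_mul φ σ τ) }
  let φU : (P.inertiaSubgroupIn ℚ) →* Eˣ := φE.toHomUnits
  let S : Subgroup Eˣ := φU.range
  have : Finite S := inferInstance
  have : IsCyclic S := isCyclic_subgroup_units S
  obtain ⟨⟨x, τ₀, hτ₀⟩, hx⟩ := IsCyclic.exists_monoid_generator (α := S)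
  refine ⟨τ₀.1, τ₀.2, fun σ hσ => ?_⟩
  obtain ⟨n, hn⟩ := hx ⟨φU ⟨σ, hσ⟩, ⟨σ, hσ⟩, rfl⟩
  refine ⟨n, fun w => ?_⟩
  have h1 : x ^ n = φU ⟨σ, hσ⟩ := by
    have := congrArg (fun s : S => (s : Eˣ)) hn
    simpa using this
  rw [← hτ₀] at h1
  have h2 : (φE τ₀) ^ n = φE ⟨σ, hσ⟩ := by
    have := congrArg (fun u : Eˣ => (u : E)) h1
    simpa [φU] using this
  have h3 : (φ τ₀) ^ n = φ ⟨σ, hσ⟩ := by
    have := congrArg (fun e : E => (e : AddMonoid.End W)) h2
    simpa [φE] using this
  have h4 := DFunLike.congr_fun h3 w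
  rw [AddMonoid.End.coe_pow] at h4
  exact h4.symm

end Fermat.Agent.S56.SS
end MergeWrap_S56_W4_C_D_Schur

section MergeWrap_S56_W4_C_D_Orbit -- from S56/W4/C/D/Orbit.lean

set_option autoImplicit false

namespace Fermat.Agent.S56.SS

/-- `γ^[d] = id` gives `γ^[d * k] = id`. -/
theorem orbitAux_iter_mul {W : Type} (γ : W → W) (d : ℕ) (h : ∀ w, γ^[d] w = w) (k : ℕ) (w : W) :
    γ^[d * k] w = w := by
  induction k with
  | zero => simp
  | succ k ih =>
    rw [Nat.mul_succ, Function.iterate_add_apply, h, ih]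

/-- Reduce the exponent modulo `d`. -/
theorem orbitAux_iter_mod {W : Type} (γ : W → W) (d : ℕ) (h : ∀ w, γ^[d] w = w) (s : ℕ) (w : W) :
    γ^[s % d] w = γ^[s] w := by
  conv_rhs => rw [← Nat.mod_add_div s d]
  rw [Function.iterate_add_apply, orbitAux_iter_mul γ d h]

/-- `γ` is injective. -/
theorem orbitAux_injective {W : Type} (γ : W → W) (d : ℕ) (hd : 0 < d) (h : ∀ w, γ^[d] w = w) :
    Function.Injective γ := by
  intro a b hab
  have h1 : γ^[d - 1] (γ a) = γ^[d - 1] (γ b) := by rw [hab]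
  rw [← Function.iterate_succ_apply, ← Function.iterate_succ_apply] at h1
  have h2 : (d - 1).succ = d := by omega
  rw [h2, h, h] at h1
  exact h1

/-- The orbit relation of `γ`. -/
def orbitAuxSetoid {W : Type} (γ : W → W) (d : ℕ) (hd : 0 < d) (h : ∀ w, γ^[d] w = w) :
    Setoid W where
  r a b := ∃ s : ℕ, γ^[s] a = b
  iseqv :=
    { refl := fun a => ⟨0, rfl⟩
      symm := by
        rintro a b ⟨s, rfl⟩
        refine ⟨(d - 1) * s, ?_⟩
        rw [← Function.iterate_add_apply]
        have h5 : (d - 1) * s + s = d * s := by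
          obtain ⟨e, rfl⟩ : ∃ e, d = e + 1 := ⟨d - 1, by omega⟩
          simp only [Nat.add_sub_cancel]
          ring
        rw [h5, orbitAux_iter_mul γ d h]
      trans := by
        rintro a b c ⟨s, rfl⟩ ⟨t, rfl⟩
        exact ⟨t + s, by rw [Function.iterate_add_apply]⟩ }

/-- **ORBIT**. -/
theorem orbitProp : OrbitProp := by
  intro W _ o γ d hd ho hγ hfree
  classical
  have hinj : Function.Injective γ := orbitAux_injective γ d hd hγ
  have hinjs : ∀ s : ℕ, Function.Injective (γ^[s]) := fun s => hinj.iterate s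
  have hos : ∀ s : ℕ, γ^[s] o = o := fun s => Function.iterate_fixed ho s
  let S : Setoid W := orbitAuxSetoid γ d hd hγ
  let Ω : Type := {ω : Quotient S // ω ≠ Quotient.mk S o}
  have : Finite Ω := inferInstance
  let m : ℕ := Nat.card Ω
  let eΩ : Fin m ≃ Ω := (Finite.equivFin Ω).symm
  let rep : Fin m → W := fun j => Quotient.out (eΩ j).1
  have hrep_ne : ∀ j, rep j ≠ o := by
    intro j hj
    apply (eΩ j).2
    have : Quotient.mk S (rep j) = (eΩ j).1 := Quotient.out_eq _
    rw [← this, hj]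
  have hrep_rel : ∀ j j', S.r (rep j) (rep j') → j = j' := by
    intro j j' hr
    have h1 : Quotient.mk S (rep j) = Quotient.mk S (rep j') := Quotient.sound hr
    have h2 : Quotient.mk S (rep j) = (eΩ j).1 := Quotient.out_eq _
    have h3 : Quotient.mk S (rep j') = (eΩ j').1 := Quotient.out_eq _
    rw [h2, h3] at h1
    exact eΩ.injective (Subtype.ext h1)
  let F : Unit ⊕ Fin m × Fin d → W := fun x =>
    match x with
    | Sum.inl _ => o
    | Sum.inr (j, s) => γ^[(s : ℕ)] (rep j)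
  have hFl : ∀ u, F (Sum.inl u) = o := fun _ => rfl
  have hFr : ∀ j s, F (Sum.inr (j, s)) = γ^[(s : ℕ)] (rep j) := fun _ _ => rfl
  have key : ∀ (x : W) (s t : ℕ), x ≠ o → s ≤ t → t < d → γ^[s] x = γ^[t] x → s = t := by
    intro x s t hx hst htd hxx
    by_contra hne
    have hlt : s < t := lt_of_le_of_ne hst hne
    have h1 : γ^[s] x = γ^[s] (γ^[t - s] x) := by
      rw [← Function.iterate_add_apply]
      have : s + (t - s) = t := by omega
      rw [this]
      exact hxx
    have h2 := hinjs s h1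
    exact hfree x hx (t - s) (by omega) (by omega) h2.symm
  have hFinj : Function.Injective F := by
    rintro (u | ⟨j, s⟩) (u' | ⟨j', s'⟩) hxy
    · rfl
    · exfalso
      rw [hFl u, hFr] at hxy
      apply hrep_ne j'
      apply hinjs (s' : ℕ)
      rw [← hxy, hos]
    · exfalso
      rw [hFl u', hFr] at hxy
      apply hrep_ne j
      apply hinjs (s : ℕ)
      rw [hxy, hos]
    · rw [hFr, hFr] at hxy
      have hjj : j = j' := by
        apply hrep_rel
        have h1 : S.r (rep j) (γ^[(s : ℕ)] (rep j)) := ⟨s, rfl⟩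
        have h2 : S.r (rep j') (γ^[(s' : ℕ)] (rep j')) := ⟨s', rfl⟩
        rw [← hxy] at h2
        exact S.iseqv.trans h1 (S.iseqv.symm h2)
      subst hjj
      have hss : (s : ℕ) = (s' : ℕ) := by
        rcases le_total (s : ℕ) (s' : ℕ) with hle | hle
        · exact key (rep j) s s' (hrep_ne j) hle s'.2 hxy
        · exact (key (rep j) s' s (hrep_ne j) hle s.2 hxy.symm).symm
      rw [Fin.ext hss]
  have hFsurj : Function.Surjective F := by
    intro w
    by_cases hw : w = o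
    · exact ⟨Sum.inl (), by rw [hFl (), hw]⟩
    · have hne : Quotient.mk S w ≠ Quotient.mk S o := by
        intro hq
        obtain ⟨s, hs⟩ : S.r w o := Quotient.exact hq
        apply hw
        apply hinjs s
        rw [hs, hos]
      let j : Fin m := eΩ.symm ⟨Quotient.mk S w, hne⟩
      have hj : (eΩ j).1 = Quotient.mk S w := by
        simp only [j, Equiv.apply_symm_apply]
      have hr : S.r (rep j) w := by
        apply Quotient.exact
        rw [Quotient.out_eq, hj]
      obtain ⟨s, hs⟩ := hr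
      refine ⟨Sum.inr (j, ⟨s % d, Nat.mod_lt s hd⟩), ?_⟩
      rw [hFr]
      simp only
      rw [orbitAux_iter_mod γ d hγ, hs]
  refine ⟨m, Equiv.ofBijective F ⟨hFinj, hFsurj⟩, ?_, ?_⟩
  · rfl
  · intro j s
    rfl

end Fermat.Agent.S56.SS
end MergeWrap_S56_W4_C_D_Orbit

section MergeWrap_S56_W4_C_D_Final -- from S56/W4/C/D/Final.lean

set_option autoImplicit false

namespace Fermat.Agent.S56.SS

open Fermat.Agent.FFL

local notation "Kb" => AlgebraicClosure ℚ

/-- All the leaves of block D. -/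
theorem dLeaves (p : ℕ) (P : ValuationSubring Kb) : DLeaves p P where
  basis := basisProp p P
  char := charProp p P
  pair := pairProp
  det := dualDet
  dact := dualAct P
  fam := dualFam p P
  red := redProp P
  schur := schurProp P
  orbit := orbitProp

/-- **T3** (block D): an `I`-order on a simple module of order `p²` with cyclic inertia action:
inertia is transitive on `W \ 0` and some `Z` with `Z 0 = 0` has valuation `1 / (p² - 1)` on
`W \ 0`. -/
theorem t3Prop (p : ℕ) (P : ValuationSubring Kb) : T3Prop p P :=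
  t3Prop_of_leaves (dLeaves p P)

/-- **Order `p`** (block D): on a module of order `p` carrying an `I`-order, inertia acts
trivially or through the cyclotomic character. -/
theorem orderPProp (p : ℕ) (P : ValuationSubring Kb) : OrderPProp p P :=
  orderPProp_of_leaves (dLeaves p P)

end Fermat.Agent.S56.SS
end MergeWrap_S56_W4_C_D_Final
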